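import Fermat.Agent.S36.Reg.Interface
import Fermat.Agent.S36.AtAPI

/-!
# S36 / Reg : second interface file (architect helper45)

The chart coordinate of `ZData` is the Hauptmodul `t = t_a`.  A closed point `𝔫` of either chart is
*cuspidal* (`PosAt 𝔫 j⁻¹`) or *non-cuspidal* (`IntAt 𝔫 j`).

* `FactsJ`, `FactsX`, `FactsB` : the field level facts (no ring `B`), in the language of the three
  vertical valuations `ord 0, ord 1, ord 2` (`A`, `mid`, `C`).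
* `Stmt_RegNC` / `Stmt_RegC` : one abstract chart `B`, one closed point.
* `Stmt_RegChart` : one abstract chart `B`, all closed points of the special fibre.
-/

set_option autoImplicit false

namespace Fermat.Agent.S36.Reg

open Fermat.Agent.KL Fermat.Agent.S36 Polynomial

/-- the minimal primes over `ϖ` are exactly the centres of the three valuations. -/
def CenB {B F : Type*} [CommRing B] [Field F] [Algebra B F] (ϖ : B) (ord : Fin 3 → F → ℤ) : Prop :=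
  (∀ P ∈ (Ideal.span {ϖ}).minimalPrimes, ∃ X, IsCen P (ord X)) ∧
    ∀ X, ∃ P ∈ (Ideal.span {ϖ}).minimalPrimes, IsCen P (ord X)

/-- multiplicativity of the three valuations. -/
def OrdMul {F : Type*} [Field F] (ord : Fin 3 → F → ℤ) : Prop :=
  ∀ (X : Fin 3) (x y : F), x ≠ 0 → y ≠ 0 → ord X (x * y) = ord X x + ord X y

/-- `ord z = (a, b, c)`. -/
def OrdIs {F : Type*} [Field F] (ord : Fin 3 → F → ℤ) (z : F) (a b c : ℤ) : Prop :=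
  z ≠ 0 ∧ ord 0 z = a ∧ ord 1 z = b ∧ ord 2 z = c

/-- `z` is integral over `A₀[1/r][j]` : `r ^ k z` is integral over `A₀[j]` for some `k`. -/
def IntJ (A₀ : Type*) {F : Type*} [CommRing A₀] [Field F] [Algebra A₀ F] (r : ℕ) (j z : F) : Prop :=
  ∃ k : ℕ, IsIntegral (Algebra.adjoin A₀ ({j} : Set F)) ((r : F) ^ k * z)

/-- **the facts on `j(q), j(q^r), j(q^(r²))`**.  `F1` = the subfield of level `N / r`. -/
structure FactsJ (A₀ F : Type) [CommRing A₀] [Field F] [Algebra A₀ F] (r : ℕ)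
    (ord : Fin 3 → F → ℤ) (F1 : Subfield F) where
  c : ℕ → ℕ → A₀
  j : F
  j1 : F
  j2 : F
  shape : PhiShape r c
  phi10 : phiStar r c j1⁻¹ j⁻¹ = 0
  phi01 : phiStar r c j⁻¹ j1⁻¹ = 0
  phi21 : phiStar r c j2⁻¹ j1⁻¹ = 0
  a0 : VUnit (ord 0) j
  a1 : VPos (ord 0) (j1 - j ^ r)
  a2 : VPos (ord 0) (j2 - j1 ^ r)
  m0 : VUnit (ord 1) j
  m1 : VPos (ord 1) (j1 - j ^ r)
  m2 : j2 - j ≠ 0 ∧ ord 1 (j2 - j) = 1
  c0 : VUnit (ord 2) j2
  c1 : VPos (ord 2) (j1 - j2 ^ r)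
  c2 : VPos (ord 2) (j - j1 ^ r)
  const_mem : ∀ a : A₀, algebraMap A₀ F a ∈ F1
  j_mem : j ∈ F1
  j1_mem : j1 ∈ F1
  unram : ∀ y ∈ F1, VPos (ord 1) y → y = 0 ∨ (r : ℤ) - 1 ≤ ord 1 y

/-- **the facts on the units** `aA = r x₂`, `aC = 1 / x₁`, `aM = x₁ / x₂`. -/
structure FactsX (A₀ F : Type) [CommRing A₀] [Field F] [Algebra A₀ F] (r : ℕ)
    (ord : Fin 3 → F → ℤ) (j : F) where
  aA : F
  aC : F
  aM : F
  ε : F
  prod : aA * aC * aM = (r : F)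
  ordA : OrdIs ord aA 1 0 0
  ordC : OrdIs ord aC 0 0 1
  ordM : OrdIs ord aM 0 ((r : ℤ) - 1) 0
  hε : ε = 1 ∨ ε = -1
  congM : VPos (ord 1) (aA - ε * aC)
  congA : VPos (ord 0) (aM - aC ^ (r - 1))
  intA : IntJ A₀ r j aA
  intC : IntJ A₀ r j aC
  intM : IntJ A₀ r j aM

/-- **the facts on** `β = t(q^(r²)) - t(q)` (`r` odd), `β = aM` (`r = 2`); `τ = ± t ^ (r - 1)`. -/
structure FactsB (A₀ F : Type) [CommRing A₀] [Field F] [Algebra A₀ F] (r : ℕ)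
    (ord : Fin 3 → F → ℤ) (j aM : F) where
  β : F
  τ : F
  ordB : OrdIs ord β 0 1 0
  cong : VPos (ord 1) (β ^ (r - 1) / aM - τ)
  intB : IntJ A₀ r j β
  τ_ne : τ ≠ 0
  intT : IsIntegral (Algebra.adjoin A₀ ({j} : Set F)) τ
  intT' : IsIntegral (Algebra.adjoin A₀ ({j} : Set F)) τ⁻¹

/-! ### local lemmas on an abstract chart -/

/-- **REG2-ADJ**. elements integral over `A₀[j]` are regular at the points where `j` is. -/
def Stmt_IntAdj : Prop :=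
  ∀ (A₀ B F : Type) [CommRing A₀] [CommRing B] [IsDomain B] [IsIntegrallyClosed B] [Field F]
    [Algebra A₀ F] [Algebra B F] [IsFractionRing B F] (𝔫 : Ideal B) (j z : F), 𝔫.IsPrime →
    (∀ a : A₀, ∃ b : B, algebraMap B F b = algebraMap A₀ F a) → IntAt 𝔫 j →
    IsIntegral (Algebra.adjoin A₀ ({j} : Set F)) z → IntAt 𝔫 z

/-- **REG2-INTO**. the criterion for `IntAt 𝔫` : integral after multiplication by a power of `ϖ`, and
non-negative vertical valuations. -/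
def Stmt_IntO : Prop :=
  ∀ (B F : Type) [CommRing B] [IsDomain B] [IsNoetherianRing B] [IsIntegrallyClosed B] [Field F]
    [Algebra B F] [IsFractionRing B F] (ϖ : B) (ord : Fin 3 → F → ℤ) (𝔫 : Ideal B) (z : F) (k : ℕ),
    𝔫.IsPrime → ϖ ≠ 0 → (∀ P ∈ (Ideal.span {ϖ}).minimalPrimes, ∃ X, IsCen P (ord X)) →
    IntAt 𝔫 (algebraMap B F ϖ ^ k * z) → (∀ X, 0 ≤ ord X z) → IntAt 𝔫 z

/-- **REG2-PRO**. `Stmt_Princ` in the language of the valuations, for `a ∈ F`. -/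
def Stmt_PrincO : Prop :=
  ∀ (B F : Type) [CommRing B] [IsDomain B] [IsNoetherianRing B] [IsIntegrallyClosed B] [Field F]
    [Algebra B F] [IsFractionRing B F] (ϖ : B) (ord : Fin 3 → F → ℤ) (𝔫 P : Ideal B) (X : Fin 3)
    (a : F), 𝔫.IsPrime → ϖ ≠ 0 → OrdMul ord →
    (∀ Q ∈ (Ideal.span {ϖ}).minimalPrimes, ∃ Y, IsCen Q (ord Y)) →
    P ∈ (Ideal.span {ϖ}).minimalPrimes → P ≤ 𝔫 → IsCen P (ord X) → a ≠ 0 → IntAt 𝔫 a →
    IntAt 𝔫 (algebraMap B F ϖ / a) → ord X a = 1 → (∀ Y, Y ≠ X → ord Y a = 0) → PrincAt 𝔫 P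

/-- **REG2-NC** : a non-cuspidal closed point. -/
def Stmt_RegNC : Prop :=
  ∀ (B F : Type) [CommRing B] [IsDomain B] [IsNoetherianRing B] [IsIntegrallyClosed B] [Field F]
    [Algebra B F] [IsFractionRing B F] (ϖ : B) (ord : Fin 3 → F → ℤ) (r : ℕ)
    (aA aC aM ε β τ : F) (𝔫 : Ideal B), 2 ≤ r → ϖ ≠ 0 → OrdMul ord → CenB ϖ ord →
    aA * aC * aM = algebraMap B F ϖ →
    OrdIs ord aA 1 0 0 → OrdIs ord aC 0 0 1 → OrdIs ord aM 0 ((r : ℤ) - 1) 0 → OrdIs ord β 0 1 0 →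
    VPos (ord 1) (aA - ε * aC) → VPos (ord 0) (aM - aC ^ (r - 1)) →
    VPos (ord 1) (β ^ (r - 1) / aM - τ) →
    𝔫.IsMaximal → ϖ ∈ 𝔫 → IntAt 𝔫 aA → IntAt 𝔫 aC → IntAt 𝔫 aM → IntAt 𝔫 β → UnitAt 𝔫 ε →
    UnitAt 𝔫 τ →
    (LocIrred ϖ 𝔫 ∨ ∀ P ∈ (Ideal.span {ϖ}).minimalPrimes, P ≤ 𝔫) ∧
      ∀ P ∈ (Ideal.span {ϖ}).minimalPrimes, P ≤ 𝔫 → PrincAt 𝔫 P

/-- **REG2-C** : the cuspidal closed points. -/
def Stmt_RegC : Prop :=
  ∀ (A₀ B F : Type) [CommRing A₀] [CommRing B] [IsDomain B] [IsNoetherianRing B]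
    [IsIntegrallyClosed B] [Field F] [Algebra A₀ F] [Algebra B F] [IsFractionRing B F] (r : ℕ)
    (ord : Fin 3 → F → ℤ) (F1 : Subfield F) (J : FactsJ A₀ F r ord F1), 2 ≤ r → (r : B) ≠ 0 →
    (∀ a : A₀, ∃ b : B, algebraMap B F b = algebraMap A₀ F a) → OrdMul ord → CenB (r : B) ord →
    OrdIs ord (r : F) 1 ((r : ℤ) - 1) 1 →
    ∀ 𝔫 : Ideal B, 𝔫.IsMaximal → (r : B) ∈ 𝔫 → PosAt 𝔫 J.j⁻¹ →
      LocIrred (r : B) 𝔫 ∧ ∀ P ∈ (Ideal.span {(r : B)}).minimalPrimes, P ≤ 𝔫 → PrincAt 𝔫 P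

/-- **REG2-JD** : the dichotomy cuspidal / non-cuspidal on a chart containing `x`
(`j d(x) = e(x)`, `(d, e) = 1`). -/
def Stmt_JDich : Prop :=
  ∀ (A₀ B F : Type) [CommRing A₀] [CommRing B] [IsDomain B] [Field F] [Algebra A₀ F] [Algebra B F]
    [IsFractionRing B F] (j x : F) (d e u v : A₀[X]) (𝔫 : Ideal B), 𝔫.IsPrime →
    (∀ a : A₀, ∃ b : B, algebraMap B F b = algebraMap A₀ F a) → (∃ b : B, algebraMap B F b = x) →
    u * d + v * e = 1 → j * aeval x d = aeval x e →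
    (IntAt 𝔫 j ∨ PosAt 𝔫 j⁻¹) ∧ (PosAt 𝔫 (aeval x d) → PosAt 𝔫 j⁻¹)

/-- **REG2-CHART** : one abstract chart. -/
def Stmt_RegChart : Prop :=
  ∀ (A₀ B F : Type) [CommRing A₀] [CommRing B] [IsDomain B] [IsNoetherianRing B]
    [IsIntegrallyClosed B] [Field F] [Algebra A₀ F] [Algebra B F] [IsFractionRing B F] (r : ℕ)
    (ord : Fin 3 → F → ℤ) (F1 : Subfield F) (J : FactsJ A₀ F r ord F1)
    (X : FactsX A₀ F r ord J.j) (_Y : FactsB A₀ F r ord J.j X.aM) (ϖ : B) (x : F)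
    (d e u v : A₀[X]), 2 ≤ r → (r : F) ≠ 0 → algebraMap B F ϖ = (r : F) →
    (∀ a : A₀, ∃ b : B, algebraMap B F b = algebraMap A₀ F a) → (∃ b : B, algebraMap B F b = x) →
    OrdMul ord → CenB ϖ ord → OrdIs ord (r : F) 1 ((r : ℤ) - 1) 1 →
    u * d + v * e = 1 → J.j * aeval x d = aeval x e →
    ∀ 𝔫 : Ideal B, 𝔫.IsMaximal → ϖ ∈ 𝔫 →
      (LocIrred ϖ 𝔫 ∨ ∀ P ∈ (Ideal.span {ϖ}).minimalPrimes, P ≤ 𝔫) ∧
      (∀ P ∈ (Ideal.span {ϖ}).minimalPrimes, P ≤ 𝔫 → PrincAt 𝔫 P) ∧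
      (PosAt 𝔫 (aeval x d) → LocIrred ϖ 𝔫)

end Fermat.Agent.S36.Reg
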