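import Fermat.Agent.S36.ZAbs

/-!
# S36 / Reg : (REG) and (TRI) of `ZData` by pure algebra (architect helper45)

Chart coordinate of `ZData` : `t := j`.  Chart 1 = all non-cuspidal closed points, the points of chart 2
with `1/j ∈ 𝔫` = all cuspidal closed points.

* cusps : algebra of the modular polynomial `Φ_r`.  `X = 1/j`, `X1 = 1/j_r`, `X2 = 1/j_{r²}`,
  `Φ*(Z,W) = Z^(r+1) W^(r+1) Φ_r(1/Z,1/W) = W^(r+1) + Z^(r+1) - Z W (1 + G(Z,W))`, `G(0,0) = 0`.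
* chart 1 : the three elements `aA = r x₂`, `aC = 1/x₁`, `aM = x₁/x₂` with `aA aC aM = r`, and `β` with
  `β^(r-1) = aM γ`, `γ` a unit modulo `P_mid`.

Everything here is abstract: `B` a noetherian integrally closed domain with fraction field `F`.
All statements are `Prop`s, each proved in its own file.
-/

set_option autoImplicit false

namespace Fermat.Agent.S36.Reg

open Fermat.Agent.KL Fermat.Agent.S36

/-- The shape of the coefficients of `Φ*(Z,W) = ∑ c a b Z^a W^b`, `0 ≤ a, b ≤ r + 1`. -/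
structure PhiShape {B : Type*} [CommRing B] (r : ℕ) (c : ℕ → ℕ → B) : Prop where
  left : ∀ b, b ≤ r → c 0 b = 0
  left_top : c 0 (r + 1) = 1
  right : ∀ a, a ≤ r → c a 0 = 0
  right_top : c (r + 1) 0 = 1
  one_one : c 1 1 = -1

/-- `Φ*(Z,W)`. -/
def phiStar {B F : Type*} [CommRing B] [Field F] [Algebra B F] (r : ℕ) (c : ℕ → ℕ → B) (Z W : F) : F :=
  ∑ a ∈ Finset.range (r + 2), ∑ b ∈ Finset.range (r + 2), algebraMap B F (c a b) * Z ^ a * W ^ b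

/-- `P B_𝔫 = a B_𝔫`, `a` prime locally at `𝔫` (the output of all the REG lemmas). -/
def PrincAt {B : Type} [CommRing B] (𝔫 P : Ideal B) : Prop :=
  ∃ a : B, a ∈ P ∧ a ≠ 0 ∧ LocPrime a 𝔫 ∧ ∀ y ∈ P, ∃ s : B, s ∉ 𝔫 ∧ a ∣ s * y

/-- the maximal ideal of `(B/P)_𝔫` is principal. -/
def CompPrinAt {B : Type} [CommRing B] (𝔫 P : Ideal B) : Prop :=
  ∃ b : B, b ∈ 𝔫 ∧ ∀ x ∈ 𝔫, ∃ s e : B, s ∉ 𝔫 ∧ s * x - e * b ∈ P

/-- **REG-UU** (the `(u, u⁻¹)`-lemma).  A root of a polynomial over `B_𝔫` with one unit coefficient: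
`x ∈ B_𝔫` or `x⁻¹ ∈ B_𝔫`. -/
def Stmt_UU : Prop :=
  ∀ (B F : Type) [CommRing B] [IsDomain B] [IsIntegrallyClosed B] [Field F] [Algebra B F]
    [IsFractionRing B F] (𝔫 : Ideal B) (d : ℕ) (c : ℕ → F) (x : F), 𝔫.IsPrime →
    (∀ i, IntAt 𝔫 (c i)) → (∃ i, i ≤ d ∧ UnitAt 𝔫 (c i)) →
    ∑ i ∈ Finset.range (d + 1), c i * x ^ i = 0 → IntAt 𝔫 x ∨ IntAt 𝔫 x⁻¹

/-- **REG-DICH**.  `Φ*(Z,W) = 0`, `W ∈ 𝔫 B_𝔫` : then `Z ∈ 𝔫 B_𝔫` and `Z = W^r · unit` or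
`W = Z^r · unit`. -/
def Stmt_Dich : Prop :=
  ∀ (B F : Type) [CommRing B] [IsDomain B] [IsIntegrallyClosed B] [Field F] [Algebra B F]
    [IsFractionRing B F] (𝔫 : Ideal B) (r : ℕ) (c : ℕ → ℕ → B) (Z W : F), 𝔫.IsPrime → 2 ≤ r →
    PhiShape r c → W ≠ 0 → PosAt 𝔫 W → phiStar r c Z W = 0 →
    Z ≠ 0 ∧ PosAt 𝔫 Z ∧
      ((∃ u : F, UnitAt 𝔫 u ∧ Z = W ^ r * u) ∨ (∃ u : F, UnitAt 𝔫 u ∧ W = Z ^ r * u))

/-- **REG-CTRI**.  A cuspidal point lies on one component only; on `P_mid` the pattern is `(∞, 0)`. -/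
def Stmt_CuspTri : Prop :=
  ∀ (B F : Type) [CommRing B] [IsDomain B] [IsIntegrallyClosed B] [Field F] [Algebra B F]
    [IsFractionRing B F] (𝔫 PA PM PC : Ideal B) (r : ℕ) (c : ℕ → ℕ → B) (X X1 X2 : F),
    𝔫.IsPrime → PA.IsPrime → PM.IsPrime → PC.IsPrime → 2 ≤ r → PhiShape r c → X ≠ 0 → PosAt 𝔫 X →
    phiStar r c X1 X = 0 → phiStar r c X2 X1 = 0 →
    UnitAt PA X → PosAt PA (X1 - X ^ r) → PosAt PA (X2 - X1 ^ r) →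
    UnitAt PM X → PosAt PM (X1 - X ^ r) → PosAt PM (X2 - X) →
    UnitAt PC X2 → PosAt PC (X1 - X2 ^ r) → PosAt PC (X - X1 ^ r) →
    (PA ≤ 𝔫 → ¬ PM ≤ 𝔫) ∧ (PA ≤ 𝔫 → ¬ PC ≤ 𝔫) ∧ (PM ≤ 𝔫 → ¬ PC ≤ 𝔫) ∧
      (PM ≤ 𝔫 → ∃ u u' : F, UnitAt 𝔫 u ∧ UnitAt 𝔫 u' ∧ X1 = X ^ r * u ∧ X1 = X2 ^ r * u')

/-- **REG-CMID**.  At a cuspidal point of `P_mid` : `h = X2 / X` is a unit and `h - 1` divides `r`.
`F1` = the subfield of level `N / r`, unramified at `P_mid`. -/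
def Stmt_CuspMid : Prop :=
  ∀ (B F : Type) [CommRing B] [IsDomain B] [IsNoetherianRing B] [IsIntegrallyClosed B] [Field F]
    [Algebra B F] [IsFractionRing B F] (𝔫 PM : Ideal B) (r : ℕ) (c : ℕ → ℕ → B)
    (X X1 X2 u u' : F) (F1 : Subfield F),
    𝔫.IsPrime → PM.IsPrime → PM ≤ 𝔫 → 2 ≤ r → (r : B) ≠ 0 → PhiShape r c →
    (∀ P ∈ (Ideal.span {(r : B)}).minimalPrimes, P ≤ 𝔫 → P = PM) →
    X ≠ 0 → PosAt 𝔫 X → phiStar r c X X1 = 0 → phiStar r c X2 X1 = 0 → X2 ≠ X →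
    UnitAt 𝔫 u → UnitAt 𝔫 u' → X1 = X ^ r * u → X1 = X2 ^ r * u' →
    UnitAt PM X → PosAt PM (X2 - X) →
    (∀ a b, algebraMap B F (c a b) ∈ F1) → X ∈ F1 → X1 ∈ F1 →
    (∀ y ∈ F1, PosAt PM y → IntAt PM (y / (r : F))) →
    UnitAt 𝔫 (X2 / X) ∧ IntAt 𝔫 ((r : F) / (X2 / X - 1))

/-- **REG-PRINC**.  `a ∈ P` generates `P B_P`, divides `ϖ` locally at `𝔫`, and lies in no other vertical
prime through `𝔫` : then `P B_𝔫 = a B_𝔫`. -/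
def Stmt_Princ : Prop :=
  ∀ (B : Type) [CommRing B] [IsDomain B] [IsNoetherianRing B] [IsIntegrallyClosed B]
    (𝔫 P : Ideal B) (ϖ a : B), 𝔫.IsPrime → ϖ ≠ 0 → P ∈ (Ideal.span {ϖ}).minimalPrimes →
    a ≠ 0 → LocGen a P →
    (∀ Q ∈ (Ideal.span {ϖ}).minimalPrimes, Q ≤ 𝔫 → a ∈ Q → Q = P) →
    (∃ s : B, s ∉ 𝔫 ∧ a ∣ s * ϖ) →
    LocPrime a 𝔫 ∧ ∀ y ∈ P, ∃ s : B, s ∉ 𝔫 ∧ a ∣ s * y

/-- **REG-CH1** (chart 1).  (TRI) and local principality of all three vertical primes. -/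
def Stmt_Chart1 : Prop :=
  ∀ (B : Type) [CommRing B] [IsDomain B] [IsNoetherianRing B] [IsIntegrallyClosed B]
    (ϖ aA aC aM β γ τ τ' ε ε' : B) (PA PM PC : Ideal B) (r : ℕ), 2 ≤ r → ϖ ≠ 0 →
    (∀ P : Ideal B, P ∈ (Ideal.span {ϖ}).minimalPrimes ↔ P = PA ∨ P = PM ∨ P = PC) →
    aA * aC * aM = ϖ →
    aA ∉ PM → aA ∉ PC → aC ∉ PA → aC ∉ PM → aM ∈ PM → aM ∉ PA → aM ∉ PC →
    LocGen aA PA → LocGen aC PC → LocGen β PM →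
    aA - ε * aC ∈ PM → ε * ε' = 1 → aM - aC ^ (r - 1) ∈ PA →
    β ^ (r - 1) = aM * γ → γ - τ ∈ PM → τ * τ' = 1 →
    ∀ 𝔫 : Ideal B, 𝔫.IsMaximal → ϖ ∈ 𝔫 →
      (LocIrred ϖ 𝔫 ∨ ∀ P ∈ (Ideal.span {ϖ}).minimalPrimes, P ≤ 𝔫) ∧
        ∀ P ∈ (Ideal.span {ϖ}).minimalPrimes, P ≤ 𝔫 → PrincAt 𝔫 P

/-- **REG-CH2** (the cuspidal points of chart 2).  (TRI) and local principality. -/
def Stmt_Chart2 : Prop :=
  ∀ (B F : Type) [CommRing B] [IsDomain B] [IsNoetherianRing B] [IsIntegrallyClosed B] [Field F]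
    [Algebra B F] [IsFractionRing B F] (PA PM PC : Ideal B) (r : ℕ) (c : ℕ → ℕ → B)
    (X X1 X2 : F) (F1 : Subfield F), 2 ≤ r → (r : B) ≠ 0 → PhiShape r c →
    (∀ P : Ideal B, P ∈ (Ideal.span {(r : B)}).minimalPrimes ↔ P = PA ∨ P = PM ∨ P = PC) →
    X ≠ 0 → X2 ≠ X →
    phiStar r c X1 X = 0 → phiStar r c X X1 = 0 → phiStar r c X2 X1 = 0 →
    UnitAt PA X → PosAt PA (X1 - X ^ r) → PosAt PA (X2 - X1 ^ r) →
    UnitAt PM X → PosAt PM (X1 - X ^ r) → PosAt PM (X2 - X) →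
    UnitAt PC X2 → PosAt PC (X1 - X2 ^ r) → PosAt PC (X - X1 ^ r) →
    LocGen (r : B) PA → LocGen (r : B) PC →
    (∀ y ∈ PM, IntAt PM (algebraMap B F y / (X2 / X - 1))) →
    (∀ a b, algebraMap B F (c a b) ∈ F1) → X ∈ F1 → X1 ∈ F1 →
    (∀ y ∈ F1, PosAt PM y → IntAt PM (y / (r : F))) →
    ∀ 𝔫 : Ideal B, 𝔫.IsMaximal → (r : B) ∈ 𝔫 → PosAt 𝔫 X →
      LocIrred (r : B) 𝔫 ∧ ∀ P ∈ (Ideal.span {(r : B)}).minimalPrimes, P ≤ 𝔫 → PrincAt 𝔫 P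

/-- **REG-DED**.  A normal one-dimensional component: (NOR) and principality of its closed points.
`R` = the polynomial ring `A₀[t]`, `B` integral over it, `R / (P ∩ R)` a PID (`= k[t]`), given as:
every prime of `R` strictly containing `P ∩ R` is maximal. -/
def Stmt_Ded : Prop :=
  ∀ (R B F : Type) [CommRing R] [CommRing B] [IsDomain B] [IsNoetherianRing B] [Algebra R B]
    [Algebra.IsIntegral R B] [Field F] [Algebra B F] [IsFractionRing B F] (P : Ideal B) [P.IsPrime],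
    IsIntegrallyClosed (B ⧸ P) →
    (∀ 𝔮 : Ideal R, 𝔮.IsPrime → P.under R < 𝔮 → 𝔮.IsMaximal) →
    ∀ 𝔫 : Ideal B, 𝔫.IsMaximal → P ≤ 𝔫 →
      CompPrinAt 𝔫 P ∧ ∀ m : ℕ, 0 < m → NorAt (F := F) m 𝔫 P

/-- glue: `PrincAt` + `CompPrinAt` give `RegAt`. -/
theorem regAt_of {B : Type} [CommRing B] {𝔫 P : Ideal B} [h𝔫 : 𝔫.IsPrime] (hP : P ≤ 𝔫)
    (h1 : PrincAt 𝔫 P) (h2 : CompPrinAt 𝔫 P) : RegAt 𝔫 := by
  obtain ⟨a, haP, ha0, hprime, hgen⟩ := h1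
  obtain ⟨b, hb, hb'⟩ := h2
  refine ⟨a, b, hP haP, hb, ha0, hprime, fun x hx => ?_⟩
  obtain ⟨s, e, hs, hse⟩ := hb' x hx
  obtain ⟨s', hs', d, hd⟩ := hgen _ hse
  refine ⟨s' * s, fun h => (h𝔫.mem_or_mem h).elim hs' hs, ?_⟩
  have h3 : s' * s * x = d * a + (s' * e) * b := by linear_combination hd
  rw [h3]
  exact Ideal.add_mem _ (Ideal.mul_mem_left _ _ (Ideal.subset_span (by simp)))
    (Ideal.mul_mem_left _ _ (Ideal.subset_span (by simp)))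

end Fermat.Agent.S36.Reg
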