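import Fermat.Agent.S36.Reg.Interface
import Fermat.Agent.S36.AtAPI

/-!
# S36 / Reg : REG-DICH.  `Φ*(Z,W) = 0`, `W ∈ 𝔫 B_𝔫` : `Z = W^r · unit` or `W = Z^r · unit`.
-/

set_option autoImplicit false

namespace Fermat.Agent.S36.Reg

open Fermat.Agent.KL Fermat.Agent.S36

section Sums

variable {B F : Type*} [CommRing B] [Field F] [Algebra B F] {P : Ideal B} [P.IsPrime]

lemma Dich_intAt_sum {ι : Type*} (s : Finset ι) (f : ι → F) (h : ∀ i ∈ s, IntAt P (f i)) :
    IntAt P (∑ i ∈ s, f i) := by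
  classical
  induction s using Finset.induction_on with
  | empty => rw [Finset.sum_empty]; exact intAt_zero
  | insert a s ha ih =>
    rw [Finset.sum_insert ha]
    exact (h a (Finset.mem_insert_self a s)).add (ih fun i hi => h i (Finset.mem_insert_of_mem hi))

lemma Dich_posAt_sum {ι : Type*} (s : Finset ι) (f : ι → F) (h : ∀ i ∈ s, PosAt P (f i)) :
    PosAt P (∑ i ∈ s, f i) := by
  classical
  induction s using Finset.induction_on with
  | empty => rw [Finset.sum_empty]; exact posAt_zero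
  | insert a s ha ih =>
    rw [Finset.sum_insert ha]
    exact (h a (Finset.mem_insert_self a s)).add (ih fun i hi => h i (Finset.mem_insert_of_mem hi))

/-- the coefficient of `Z ^ a` in `Φ*(Z, W)`. -/
noncomputable def Dich_C (r : ℕ) (c : ℕ → ℕ → B) (W : F) (a : ℕ) : F :=
  ∑ b ∈ Finset.range (r + 2), algebraMap B F (c a b) * W ^ b

omit [P.IsPrime] in
lemma Dich_phiStar_eq_sum (r : ℕ) (c : ℕ → ℕ → B) (Z W : F) :
    phiStar r c Z W = ∑ a ∈ Finset.range (r + 2), Dich_C r c W a * Z ^ a := by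
  unfold phiStar Dich_C
  refine Finset.sum_congr rfl fun a _ => ?_
  rw [Finset.sum_mul]
  exact Finset.sum_congr rfl fun b _ => by ring

lemma Dich_C_intAt (r : ℕ) (c : ℕ → ℕ → B) {W : F} (hW : IntAt P W) (a : ℕ) :
    IntAt P (Dich_C r c W a) :=
  Dich_intAt_sum _ _ fun b _ => (intAt_algebraMap _).mul (hW.pow b)

lemma Dich_C_sub_posAt (r : ℕ) (c : ℕ → ℕ → B) {W : F} (hW : PosAt P W) (a : ℕ) :
    PosAt P (Dich_C r c W a - algebraMap B F (c a 0)) := by
  unfold Dich_C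
  rw [Finset.sum_range_succ', pow_zero, mul_one, add_sub_cancel_right]
  exact Dich_posAt_sum _ _ fun b _ => (intAt_algebraMap _).mul_posAt (hW.pow (Nat.succ_pos b))

lemma Dich_C_posAt {r : ℕ} {c : ℕ → ℕ → B} (hc : PhiShape r c) {W : F} (hW : PosAt P W) {a : ℕ}
    (ha : a ≤ r) : PosAt P (Dich_C r c W a) := by
  have := Dich_C_sub_posAt r c hW a
  rwa [hc.right a ha, map_zero, sub_zero] at this

/-- `Φ*(Z,W) = W^(r+1) + Z^(r+1) + Z W G(Z,W)`. -/
noncomputable def Dich_G (r : ℕ) (c : ℕ → ℕ → B) (Z W : F) : F :=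
  ∑ a ∈ Finset.range (r + 1), ∑ b ∈ Finset.range (r + 1),
    algebraMap B F (c (a + 1) (b + 1)) * Z ^ a * W ^ b

omit [P.IsPrime] in
lemma Dich_phiStar_eq {r : ℕ} {c : ℕ → ℕ → B} (hc : PhiShape r c) (Z W : F) :
    phiStar r c Z W = W ^ (r + 1) + Z ^ (r + 1) + Z * W * Dich_G r c Z W := by
  unfold phiStar Dich_G
  rw [Finset.sum_range_succ']
  have h0 : ∑ b ∈ Finset.range (r + 2), algebraMap B F (c 0 b) * Z ^ 0 * W ^ b = W ^ (r + 1) := by
    rw [Finset.sum_range_succ, Finset.sum_eq_zero, hc.left_top, map_one, pow_zero, one_mul, one_mul,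
      zero_add]
    intro b hb
    rw [hc.left b (Nat.lt_succ_iff.1 (Finset.mem_range.1 hb)), map_zero, zero_mul, zero_mul]
  have h1 : ∀ a, ∑ b ∈ Finset.range (r + 2), algebraMap B F (c (a + 1) b) * Z ^ (a + 1) * W ^ b
      = Z * W * (∑ b ∈ Finset.range (r + 1), algebraMap B F (c (a + 1) (b + 1)) * Z ^ a * W ^ b)
        + algebraMap B F (c (a + 1) 0) * Z ^ (a + 1) := by
    intro a
    rw [Finset.sum_range_succ', Finset.mul_sum, pow_zero, mul_one]
    congr 1
    exact Finset.sum_congr rfl fun b _ => by ring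
  have h2 : ∑ a ∈ Finset.range (r + 1), algebraMap B F (c (a + 1) 0) * Z ^ (a + 1)
      = Z ^ (r + 1) := by
    rw [Finset.sum_range_succ, Finset.sum_eq_zero, hc.right_top, map_one, one_mul, zero_add]
    intro a ha
    rw [hc.right (a + 1) (Nat.succ_le_of_lt (Finset.mem_range.1 ha)), map_zero, zero_mul]
  rw [h0, Finset.sum_congr rfl (fun a _ => h1 a), Finset.sum_add_distrib, h2, ← Finset.mul_sum]
  ring

lemma Dich_G_add_one {r : ℕ} {c : ℕ → ℕ → B} (hc : PhiShape r c) {Z W : F} (hZ : PosAt P Z)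
    (hW : PosAt P W) : PosAt P (Dich_G r c Z W + 1) := by
  have e : Dich_G r c Z W + 1 =
      (∑ a ∈ Finset.range r, ∑ b ∈ Finset.range (r + 1),
        algebraMap B F (c (a + 1 + 1) (b + 1)) * Z ^ (a + 1) * W ^ b) +
      ∑ b ∈ Finset.range r, algebraMap B F (c (0 + 1) (b + 1 + 1)) * Z ^ 0 * W ^ (b + 1) := by
    unfold Dich_G
    rw [Finset.sum_range_succ', Finset.sum_range_succ' (fun b =>
      algebraMap B F (c (0 + 1) (b + 1)) * Z ^ 0 * W ^ b)]
    simp only [zero_add, pow_zero, mul_one, hc.one_one, map_neg, map_one]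
    ring
  rw [e]
  refine (Dich_posAt_sum _ _ fun a _ => Dich_posAt_sum _ _ fun b _ => ?_).add
    (Dich_posAt_sum _ _ fun b _ => ?_)
  · exact ((intAt_algebraMap _).mul_posAt (hZ.pow (Nat.succ_pos a))).mul_intAt (hW.intAt.pow b)
  · exact ((intAt_algebraMap _).mul (hZ.intAt.pow 0)).mul_posAt (hW.pow (Nat.succ_pos b))

end Sums

section Key

variable {B F : Type*} [CommRing B] [IsDomain B] [Field F] [Algebra B F] [IsFractionRing B F]
  {P : Ideal B} [P.IsPrime]

/-- step (6). -/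
lemma Dich_key {k : ℕ} (hk : 0 < k) {Z W v : F} (hW0 : W ≠ 0) (hW : PosAt P W) (hv : UnitAt P v)
    (hE : W ^ (k + 2) + Z ^ (k + 2) = Z * W * v) (hρ : IntAt P (Z / W)) :
    ∃ u : F, UnitAt P u ∧ Z = W ^ (k + 1) * u := by
  have hρW : Z / W * W = Z := div_mul_cancel₀ Z hW0
  have hβ : UnitAt P (v - (Z / W) ^ (k + 1) * W ^ k) := by
    rw [sub_eq_add_neg]
    exact hv.add_posAt ((hρ.pow (k + 1)).mul_posAt (hW.pow hk)).neg
  refine ⟨(v - (Z / W) ^ (k + 1) * W ^ k)⁻¹, hβ.inv, ?_⟩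
  rw [eq_mul_inv_iff_mul_eq₀ hβ.ne_zero]
  apply mul_left_cancel₀ hW0
  have h2 : (Z / W) ^ (k + 1) * W ^ (k + 1) = Z ^ (k + 1) := by rw [← mul_pow, hρW]
  linear_combination (-1 : F) * hE - Z * h2

end Key

theorem dich (h : Stmt_UU) : Stmt_Dich := by
  intro B F _ _ _ _ _ _ 𝔫 r c Z W h𝔫 hr hc hW0 hW hΦ
  have := h𝔫
  obtain ⟨k, rfl⟩ : ∃ k, r = k + 1 := ⟨r - 1, by omega⟩
  have hk : 0 < k := by omega
  -- (1)
  have hZ0 : Z ≠ 0 := by
    rintro rfl
    rw [Dich_phiStar_eq hc, zero_mul, zero_mul, add_zero, zero_pow (Nat.succ_ne_zero _),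
      add_zero] at hΦ
    exact hW0 (pow_eq_zero_iff (Nat.succ_ne_zero _) |>.1 hΦ)
  -- the polynomial in `Z`
  have hsum := hΦ
  rw [Dich_phiStar_eq_sum] at hsum
  have hCtop : UnitAt 𝔫 (Dich_C (k + 1) c W (k + 1 + 1)) := by
    refine unitAt_one.of_sub_posAt ?_
    have := Dich_C_sub_posAt (k + 1) c hW (k + 1 + 1)
    rwa [hc.right_top, map_one] at this
  have hsplit : Dich_C (k + 1) c W (k + 1 + 1) * Z ^ (k + 1 + 1) =
      -∑ a ∈ Finset.range (k + 1 + 1), Dich_C (k + 1) c W a * Z ^ a := by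
    rw [Finset.sum_range_succ] at hsum
    linear_combination hsum
  -- (2), (3)
  have hZ : PosAt 𝔫 Z := by
    rcases h B F 𝔫 (k + 1 + 1) (Dich_C (k + 1) c W) Z h𝔫 (Dich_C_intAt _ _ hW.intAt)
      ⟨k + 1 + 1, le_rfl, hCtop⟩ hsum with hi | hi
    · by_contra hnp
      have hu : UnitAt 𝔫 Z := hi.unitAt_of_not_posAt hnp
      refine (hCtop.mul (hu.pow (k + 1 + 1))).not_posAt ?_
      rw [hsplit]
      exact (Dich_posAt_sum _ _ fun a ha => (Dich_C_posAt hc hW
        (Nat.lt_succ_iff.1 (Finset.mem_range.1 ha))).mul_intAt (hi.pow a)).neg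
    · exfalso
      refine hCtop.not_posAt ?_
      have e : Dich_C (k + 1) c W (k + 1 + 1) =
          -∑ a ∈ Finset.range (k + 1 + 1), Dich_C (k + 1) c W a * Z⁻¹ ^ (k + 1 + 1 - a) := by
        have h1 : Dich_C (k + 1) c W (k + 1 + 1) =
            Dich_C (k + 1) c W (k + 1 + 1) * Z ^ (k + 1 + 1) * Z⁻¹ ^ (k + 1 + 1) := by
          rw [mul_assoc, ← mul_pow, mul_inv_cancel₀ hZ0, one_pow, mul_one]
        rw [h1, hsplit, neg_mul, Finset.sum_mul]
        congr 1
        refine Finset.sum_congr rfl fun a ha => ?_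
        have ha' : a ≤ k + 1 + 1 := (Finset.mem_range.1 ha).le
        have h2 : Z⁻¹ ^ (k + 1 + 1) = Z⁻¹ ^ a * Z⁻¹ ^ (k + 1 + 1 - a) := by
          rw [← pow_add, Nat.add_sub_cancel' ha']
        rw [h2, mul_assoc, ← mul_assoc (Z ^ a), ← mul_pow, mul_inv_cancel₀ hZ0, one_pow, one_mul]
      rw [e]
      exact (Dich_posAt_sum _ _ fun a ha => (Dich_C_posAt hc hW
        (Nat.lt_succ_iff.1 (Finset.mem_range.1 ha))).mul_intAt (hi.pow _)).neg
  -- (4)
  have hv : UnitAt 𝔫 (-Dich_G (k + 1) c Z W) := by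
    have := unitAt_one.add_posAt (Dich_G_add_one hc hZ hW).neg
    have e : (1 : F) + -(Dich_G (k + 1) c Z W + 1) = -Dich_G (k + 1) c Z W := by ring
    rwa [e] at this
  have hE : W ^ (k + 2) + Z ^ (k + 2) = Z * W * (-Dich_G (k + 1) c Z W) := by
    rw [Dich_phiStar_eq hc] at hΦ
    linear_combination hΦ
  refine ⟨hZ0, hZ, ?_⟩
  -- (5)
  have hρW : Z / W * W = Z := div_mul_cancel₀ Z hW0
  have hρ : IntAt 𝔫 (Z / W) ∨ IntAt 𝔫 (Z / W)⁻¹ := by
    refine h B F 𝔫 (k + 2) (fun i => (if i = 0 then W ^ k else 0) +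
      (if i = 1 then Dich_G (k + 1) c Z W else 0) + (if i = k + 2 then W ^ k else 0)) (Z / W) h𝔫
      ?_ ⟨1, by omega, ?_⟩ ?_
    · intro i
      refine (IntAt.add ?_ ?_).add ?_
      · split_ifs
        · exact hW.intAt.pow k
        · exact intAt_zero
      · split_ifs
        · have := hv.neg.intAt
          rwa [neg_neg] at this
        · exact intAt_zero
      · split_ifs
        · exact hW.intAt.pow k
        · exact intAt_zero
    · have e : ((if (1 : ℕ) = 0 then W ^ k else 0) +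
          (if (1 : ℕ) = 1 then Dich_G (k + 1) c Z W else 0) +
          (if (1 : ℕ) = k + 2 then W ^ k else 0)) = Dich_G (k + 1) c Z W := by
        rw [if_neg one_ne_zero, if_pos rfl, if_neg (by omega), zero_add, add_zero]
      rw [e]
      have := hv.neg
      rwa [neg_neg] at this
    · simp only [add_mul, ite_mul, zero_mul, Finset.sum_add_distrib, Finset.sum_ite_eq',
        Finset.mem_range]
      rw [if_pos (by omega), if_pos (by omega), if_pos (by omega)]
      apply mul_left_cancel₀ (pow_ne_zero 2 hW0)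
      have h2 : (Z / W) ^ (k + 2) * W ^ (k + 2) = Z ^ (k + 2) := by rw [← mul_pow, hρW]
      linear_combination hE + h2 + W * Dich_G (k + 1) c Z W * hρW
  -- (6)
  rcases hρ with hρ | hρ
  · exact Or.inl (Dich_key hk hW0 hW hv hE hρ)
  · rw [inv_div] at hρ
    exact Or.inr (Dich_key hk hZ0 hZ hv (by linear_combination hE) hρ)

end Fermat.Agent.S36.Reg
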