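import Fermat.Agent.S36.Reg.Interface
import Fermat.Agent.S36.AtAPI

/-!
# S36 / Reg, package REG-UU : the `(u, u⁻¹)`-lemma in the `IntAt` language
-/

set_option autoImplicit false

namespace Fermat.Agent.S36.Reg

open Fermat.Agent.KL Fermat.Agent.S36 Polynomial

section

variable {B F : Type*} [CommRing B] [Field F] [Algebra B F]

/-- a root of a monic polynomial (written as a sum) is integral. -/
theorem UU_isIntegral (y : F) (d : ℕ) (a : ℕ → B)
    (h : y ^ d + ∑ i ∈ Finset.range d, algebraMap B F (a i) * y ^ i = 0) : IsIntegral B y := by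
  refine ⟨X ^ d + ∑ i : Fin d, C (a i) * X ^ (i : ℕ), monic_X_pow_add (degree_sum_fin_lt _), ?_⟩
  rw [eval₂_add, eval₂_pow, eval₂_X, eval₂_finset_sum, ← h, Finset.sum_range]
  congr 1
  refine Finset.sum_congr rfl fun i _ => ?_
  rw [eval₂_mul, eval₂_C, eval₂_pow, eval₂_X]

variable {𝔫 : Ideal B} [𝔫.IsPrime]

/-- common denominators. -/
theorem UU_common (S : Finset ℕ) (c : ℕ → F) (h : ∀ i ∈ S, IntAt 𝔫 (c i)) :
    ∃ s : B, s ∉ 𝔫 ∧ ∀ i ∈ S, ∃ b : B, algebraMap B F s * c i = algebraMap B F b := by
  classical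
  induction S using Finset.induction_on with
  | empty => exact ⟨1, one_not_mem_of_isPrime, fun i hi => absurd hi (Finset.notMem_empty i)⟩
  | insert j S hj ih =>
    obtain ⟨s, hs, hS⟩ := ih fun i hi => h i (Finset.mem_insert_of_mem hi)
    obtain ⟨s', hs', p, e⟩ := h j (Finset.mem_insert_self j S)
    refine ⟨s * s', mul_not_mem_of_isPrime hs hs', fun i hi => ?_⟩
    rcases Finset.mem_insert.1 hi with rfl | hi
    · exact ⟨s * p, by rw [map_mul, map_mul, ← e]; ring⟩
    · obtain ⟨b, hb⟩ := hS i hi
      exact ⟨s' * b, by rw [map_mul, map_mul, ← hb]; ring⟩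

variable [IsDomain B] [IsFractionRing B F] [IsIntegrallyClosed B]

/-- normality: a root of a monic polynomial over `B_𝔫` lies in `B_𝔫`. -/
theorem UU_of_monic (x : F) (d : ℕ) (c : ℕ → F) (hc : ∀ i, IntAt 𝔫 (c i))
    (h : x ^ d + ∑ i ∈ Finset.range d, c i * x ^ i = 0) : IntAt 𝔫 x := by
  obtain ⟨s, hs, hS⟩ := UU_common (𝔫 := 𝔫) (Finset.range d) c fun i _ => hc i
  have hS' : ∀ i, ∃ b : B, i ∈ Finset.range d → algebraMap B F s * c i = algebraMap B F b := by
    intro i
    by_cases hi : i ∈ Finset.range d
    · obtain ⟨b, hb⟩ := hS i hi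
      exact ⟨b, fun _ => hb⟩
    · exact ⟨0, fun h => absurd h hi⟩
  choose b hb using hS'
  have h2 : IsIntegral B (algebraMap B F s * x) := by
    refine UU_isIntegral _ d (fun i => b i * s ^ (d - 1 - i)) ?_
    have h3 : (algebraMap B F s * x) ^ d + ∑ i ∈ Finset.range d,
        algebraMap B F (b i * s ^ (d - 1 - i)) * (algebraMap B F s * x) ^ i =
        algebraMap B F s ^ d * (x ^ d + ∑ i ∈ Finset.range d, c i * x ^ i) := by
      rw [mul_add, mul_pow, Finset.mul_sum]
      congr 1
      refine Finset.sum_congr rfl fun i hi => ?_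
      have hi' : i < d := Finset.mem_range.1 hi
      have e : d = (d - 1 - i) + i + 1 := by omega
      rw [map_mul, ← hb i hi, map_pow, mul_pow]
      conv_rhs => rw [e]
      ring
    rw [h3, h, mul_zero]
  obtain ⟨y, hy⟩ := IsIntegrallyClosed.isIntegral_iff.1 h2
  exact ⟨s, hs, y, hy.symm⟩

theorem UU_main (d : ℕ) : ∀ (c : ℕ → F) (x : F), (∀ i, IntAt 𝔫 (c i)) →
    (∃ i, i ≤ d ∧ UnitAt 𝔫 (c i)) → ∑ i ∈ Finset.range (d + 1), c i * x ^ i = 0 →
    IntAt 𝔫 x ∨ IntAt 𝔫 x⁻¹ := by
  induction d with
  | zero =>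
    rintro c x - ⟨i, hi, hu⟩ h
    obtain rfl : i = 0 := by omega
    rw [zero_add, Finset.sum_range_one, pow_zero, mul_one] at h
    exact absurd h hu.ne_zero
  | succ d ih =>
    rintro c x hc ⟨i₀, hi₀, hu⟩ h
    rw [Finset.sum_range_succ] at h
    by_cases hA : UnitAt 𝔫 (c (d + 1))
    · -- the leading coefficient is a unit
      left
      refine UU_of_monic x (d + 1) (fun i => c i * (c (d + 1))⁻¹)
        (fun i => (hc i).mul hA.inv.intAt) ?_
      have h0 := hA.ne_zero
      have e : x ^ (d + 1) + ∑ i ∈ Finset.range (d + 1), c i * (c (d + 1))⁻¹ * x ^ i =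
          (c (d + 1))⁻¹ * (∑ i ∈ Finset.range (d + 1), c i * x ^ i + c (d + 1) * x ^ (d + 1)) := by
        rw [mul_add, Finset.mul_sum, ← mul_assoc, inv_mul_cancel₀ h0, one_mul, add_comm]
        congr 1
        exact Finset.sum_congr rfl fun i _ => by ring
      rw [e, h, mul_zero]
    · -- `b = c_{d+1} x` is integral
      set b : F := c (d + 1) * x with hb
      have hbI : IntAt 𝔫 b := by
        refine UU_of_monic b (d + 1) (fun i => c i * c (d + 1) ^ (d - i))
          (fun i => (hc i).mul ((hc (d + 1)).pow _)) ?_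
        have e : b ^ (d + 1) + ∑ i ∈ Finset.range (d + 1), c i * c (d + 1) ^ (d - i) * b ^ i =
            c (d + 1) ^ d *
              (∑ i ∈ Finset.range (d + 1), c i * x ^ i + c (d + 1) * x ^ (d + 1)) := by
          rw [mul_add, Finset.mul_sum, add_comm]
          congr 1
          · refine Finset.sum_congr rfl fun i hi => ?_
            have hi' : i < d + 1 := Finset.mem_range.1 hi
            have e2 : c (d + 1) ^ d = c (d + 1) ^ (d - i) * c (d + 1) ^ i := by
              rw [← pow_add]
              congr 1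
              omega
            rw [hb, mul_pow, e2]
            ring
          · rw [hb]; ring
        rw [e, h, mul_zero]
      let c' : ℕ → F := fun i => if i = d then b + c d else c i
      have hc' : ∀ i, IntAt 𝔫 (c' i) := by
        intro i
        show IntAt 𝔫 (if i = d then b + c d else c i)
        split_ifs
        · exact hbI.add (hc d)
        · exact hc i
      have hsum : ∑ i ∈ Finset.range (d + 1), c' i * x ^ i = 0 := by
        rw [Finset.sum_range_succ] at h ⊢
        have e1 : ∑ i ∈ Finset.range d, c' i * x ^ i = ∑ i ∈ Finset.range d, c i * x ^ i := by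
          refine Finset.sum_congr rfl fun i hi => ?_
          have hi' : i ≠ d := (Finset.mem_range.1 hi).ne
          show (if i = d then b + c d else c i) * x ^ i = _
          rw [if_neg hi']
        have e2 : c' d = b + c d := if_pos rfl
        rw [e1, e2, ← h, hb]
        ring
      by_cases hB : ∃ i, i ≤ d ∧ UnitAt 𝔫 (c' i)
      · exact ih c' x hc' hB hsum
      · right
        have hi1 : i₀ ≠ d + 1 := by
          rintro rfl
          exact hA hu
        have hi2 : i₀ = d := by
          by_contra hne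
          apply hB
          refine ⟨i₀, by omega, ?_⟩
          show UnitAt 𝔫 (if i₀ = d then b + c d else c i₀)
          rw [if_neg hne]
          exact hu
        subst hi2
        have hpos : PosAt 𝔫 (b + c i₀) := by
          by_contra hn
          apply hB
          refine ⟨i₀, le_rfl, ?_⟩
          show UnitAt 𝔫 (if i₀ = i₀ then b + c i₀ else c i₀)
          rw [if_pos rfl]
          exact (hbI.add (hc i₀)).unitAt_of_not_posAt hn
        have hbU : UnitAt 𝔫 b := by
          have := hu.neg.add_posAt hpos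
          have e : -c i₀ + (b + c i₀) = b := by ring
          rwa [e] at this
        have hb0 := hbU.ne_zero
        have hx0 : x ≠ 0 := by
          rintro rfl
          exact hb0 (by rw [hb, mul_zero])
        have e : x⁻¹ = c (i₀ + 1) * b⁻¹ := by
          rw [hb] at hb0 ⊢
          have hc0 : c (i₀ + 1) ≠ 0 := left_ne_zero_of_mul hb0
          field_simp
        rw [e]
        exact (hc (i₀ + 1)).mul hbU.inv.intAt

end

theorem uu : Stmt_UU := by
  intro B F _ _ _ _ _ _ 𝔫 d c x h𝔫 hc hu h
  exact UU_main d c x hc hu h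

end Fermat.Agent.S36.Reg
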