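import Fermat.Agent.S36.Reg.Interface2
import Fermat.Agent.S36.Reg.UU

/-!
# S36 / Reg : REG2-ADJ (`Stmt_IntAdj`) and REG2-JD (`Stmt_JDich`)
-/

set_option autoImplicit false

namespace Fermat.Agent.S36.Reg

open Fermat.Agent.KL Fermat.Agent.S36 Polynomial

/-- every element of `A₀[j]` is regular at the points where `j` is. -/
theorem AdjJD_adjoin {A₀ B F : Type} [CommRing A₀] [CommRing B] [Field F]
    [Algebra A₀ F] [Algebra B F] (𝔫 : Ideal B) [𝔫.IsPrime] (j : F)
    (const : ∀ a : A₀, ∃ b : B, algebraMap B F b = algebraMap A₀ F a) (hj : IntAt 𝔫 j)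
    (w : F) (hw : w ∈ Algebra.adjoin A₀ ({j} : Set F)) : IntAt 𝔫 w := by
  induction hw using Algebra.adjoin_induction with
  | mem x hx =>
    rw [Set.mem_singleton_iff] at hx
    rw [hx]
    exact hj
  | algebraMap a =>
    obtain ⟨b, hb⟩ := const a
    rw [← hb]
    exact intAt_algebraMap b
  | add x y _ _ hx hy => exact hx.add hy
  | mul x y _ _ hx hy => exact hx.mul hy

theorem intAdj : Stmt_IntAdj := by
  intro A₀ B F _ _ _ _ _ _ _ _ 𝔫 j z h𝔫 const hj hz
  have := h𝔫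
  obtain ⟨p, hp, he⟩ := hz
  rw [eval₂_eq_sum_range, Finset.sum_range_succ, hp.coeff_natDegree, map_one, one_mul] at he
  refine UU_of_monic z p.natDegree
    (fun i => algebraMap (Algebra.adjoin A₀ ({j} : Set F)) F (p.coeff i)) (fun i => ?_) ?_
  · exact AdjJD_adjoin 𝔫 j const hj _ (p.coeff i).2
  · rw [add_comm]
    exact he

/-- values of polynomials at `x ∈ B` are in `B`. -/
theorem AdjJD_aeval {A₀ B F : Type} [CommRing A₀] [CommRing B] [Field F]
    [Algebra A₀ F] [Algebra B F]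
    (const : ∀ a : A₀, ∃ b : B, algebraMap B F b = algebraMap A₀ F a) (x : F)
    (hx : ∃ b : B, algebraMap B F b = x) (p : A₀[X]) :
    ∃ b : B, algebraMap B F b = aeval x p := by
  obtain ⟨x₀, hx₀⟩ := hx
  induction p using Polynomial.induction_on with
  | C a =>
    obtain ⟨b, hb⟩ := const a
    exact ⟨b, by rw [hb, aeval_C]⟩
  | add p q hp hq =>
    obtain ⟨b, hb⟩ := hp
    obtain ⟨c, hc⟩ := hq
    exact ⟨b + c, by rw [map_add, map_add, hb, hc]⟩
  | monomial n a h =>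
    obtain ⟨b, hb⟩ := h
    exact ⟨b * x₀, by rw [map_mul, hb, hx₀, pow_succ, ← mul_assoc, map_mul (aeval x) _ X, aeval_X]⟩

theorem jDich : Stmt_JDich := by
  intro A₀ B F _ _ _ _ _ _ _ j x d e u v 𝔫 h𝔫 const hx huv hj
  have := h𝔫
  obtain ⟨D, hD⟩ := AdjJD_aeval const x hx d
  obtain ⟨E, hE⟩ := AdjJD_aeval const x hx e
  obtain ⟨U, hU⟩ := AdjJD_aeval const x hx u
  obtain ⟨V, hV⟩ := AdjJD_aeval const x hx v
  have h1 : U * D + V * E = 1 := by
    apply IsFractionRing.injective B F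
    rw [map_add, map_mul, map_mul, hU, hD, hV, hE, ← map_mul, ← map_mul, ← map_add, huv, map_one,
      map_one]
  rw [← hD, ← hE] at hj
  have key : D ∈ 𝔫 → PosAt 𝔫 j⁻¹ := by
    intro hDn
    have hEn : E ∉ 𝔫 := by
      intro hEn
      apply one_not_mem_of_isPrime (P := 𝔫)
      rw [← h1]
      exact 𝔫.add_mem (𝔫.mul_mem_left _ hDn) (𝔫.mul_mem_left _ hEn)
    have hj0 : j ≠ 0 := by
      rintro rfl
      rw [zero_mul] at hj
      exact algebraMap_ne_zero_of_not_mem hEn hj.symm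
    refine ⟨E, hEn, D, hDn, ?_⟩
    rw [← hj]
    field_simp
  refine ⟨?_, ?_⟩
  · by_cases hDn : D ∈ 𝔫
    · exact Or.inr (key hDn)
    · exact Or.inl ⟨D, hDn, E, by rw [mul_comm, hj]⟩
  · rw [← hD]
    rintro ⟨s, hs, p, hp, hsp⟩
    apply key
    have h2 : s * D = p := by
      apply IsFractionRing.injective B F
      rw [map_mul, hsp]
    exact (h𝔫.mem_or_mem (h2 ▸ hp : s * D ∈ 𝔫)).resolve_left hs

end Fermat.Agent.S36.Reg
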