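import Fermat.Agent.S36.Reg.Interface
import Fermat.Agent.S36.AtAPI

/-!
# S36 / Reg / REG-CH2 : the cuspidal points of chart 2 : (TRI) and local principality (helper86)
-/

set_option autoImplicit false

namespace Fermat.Agent.S36.Reg

open Fermat.Agent.KL Fermat.Agent.S36

theorem Chart2_mem_of_posAt {B F : Type*} [CommRing B] [IsDomain B] [Field F] [Algebra B F]
    [IsFractionRing B F] {P : Ideal B} [hP : P.IsPrime] {a : B}
    (h : PosAt P (algebraMap B F a)) : a ∈ P := by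
  obtain ⟨s, hs, p, hp, e⟩ := h
  have h1 : s * a = p := by
    apply IsFractionRing.injective B F
    rw [map_mul, e]
  exact (hP.mem_or_mem (h1 ▸ hp : s * a ∈ P)).resolve_left hs

/-- **REG-CH2.** -/
theorem chart2 (h1 : Stmt_CuspTri) (h2 : Stmt_CuspMid) (h3 : Stmt_Princ) : Stmt_Chart2 := by
  intro B F _ _ _ _ _ _ _ PA PM PC r c X X1 X2 F1 hr2 hr0 hc hmin hX hX2 e1 e2 e3 a1 a2 a3 m1 m2 m3
    c1 c2 c3 gA gC gM f1 f2 f3 f4 𝔫 hn hrn hXn
  have hAmin : PA ∈ (Ideal.span {(r : B)}).minimalPrimes := (hmin PA).2 (Or.inl rfl)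
  have hMmin : PM ∈ (Ideal.span {(r : B)}).minimalPrimes := (hmin PM).2 (Or.inr (Or.inl rfl))
  have hCmin : PC ∈ (Ideal.span {(r : B)}).minimalPrimes := (hmin PC).2 (Or.inr (Or.inr rfl))
  have hPA : PA.IsPrime := hAmin.1.1
  have hPM : PM.IsPrime := hMmin.1.1
  have hPC : PC.IsPrime := hCmin.1.1
  have hnp : 𝔫.IsPrime := hn.isPrime
  obtain ⟨t1, t2, t3, t4⟩ := h1 B F 𝔫 PA PM PC r c X X1 X2 hnp hPA hPM hPC hr2 hc hX hXn e1 e3
    a1 a2 a3 m1 m2 m3 c1 c2 c3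
  have hirr : LocIrred (r : B) 𝔫 := by
    intro P Q hP hQ hPn hQn
    rcases (hmin P).1 hP with rfl | rfl | rfl <;> rcases (hmin Q).1 hQ with rfl | rfl | rfl
    · rfl
    · exact absurd hQn (t1 hPn)
    · exact absurd hQn (t2 hPn)
    · exact absurd hPn (t1 hQn)
    · rfl
    · exact absurd hQn (t3 hPn)
    · exact absurd hPn (t2 hQn)
    · exact absurd hPn (t3 hQn)
    · rfl
  have hone : (1 : B) ∉ 𝔫 := one_not_mem_of_isPrime
  refine ⟨hirr, fun P hP hPn => ?_⟩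
  rcases (hmin P).1 hP with rfl | rfl | rfl
  · obtain ⟨k1, k2⟩ := h3 B 𝔫 P (r : B) (r : B) hnp hr0 hP hr0 gA
      (fun Q hQ hQn _ => hirr Q P hQ hP hQn hPn) ⟨1, hone, by rw [one_mul]⟩
    exact ⟨(r : B), gA.1, hr0, k1, k2⟩
  · obtain ⟨u, u', hu, hu', hu1, hu2⟩ := t4 hPn
    obtain ⟨q1, q2⟩ := h2 B F 𝔫 P r c X X1 X2 u u' F1 hnp hPM hPn hr2 hr0 hc
      (fun Q hQ hQn => hirr Q P hQ hP hQn hPn) hX hXn e2 e3 hX2 hu hu' hu1 hu2 m1 m3 f1 f2 f3 f4
    have hT0 : X2 / X - 1 ≠ 0 := by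
      intro h0
      apply hX2
      have : X2 / X = 1 := sub_eq_zero.1 h0
      rwa [div_eq_one_iff_eq hX] at this
    obtain ⟨s, hs, a, ea⟩ := q1.intAt.sub (intAt_one (P := 𝔫))
    have hs0 : algebraMap B F s ≠ 0 := algebraMap_ne_zero_of_not_mem hs
    have hsP : s ∉ P := fun h => hs (hPn h)
    have ha0 : a ≠ 0 := by
      rintro rfl
      rw [map_zero] at ea
      exact (mul_ne_zero hs0 hT0) ea
    have hTpos : PosAt P (X2 / X - 1) := by
      have e : X2 / X - 1 = (X2 - X) * X⁻¹ := by field_simp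
      rw [e]
      exact m3.mul_intAt m1.inv.intAt
    have haP : a ∈ P := by
      apply Chart2_mem_of_posAt (F := F)
      rw [← ea]
      exact (intAt_algebraMap s).mul_posAt hTpos
    have hgen : LocGen a P := by
      refine ⟨haP, fun y hy => ?_⟩
      obtain ⟨s₁, hs₁, p₁, e₁⟩ := gM y hy
      refine ⟨s * s₁, mul_not_mem_of_isPrime hsP hs₁, p₁, ?_⟩
      apply IsFractionRing.injective B F
      rw [map_mul, map_mul, map_mul, ← ea, ← e₁]
      field_simp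
    have hdiv : ∃ s' : B, s' ∉ 𝔫 ∧ a ∣ s' * (r : B) := by
      obtain ⟨s₂, hs₂, p₂, e₂⟩ := q2
      refine ⟨s * s₂, mul_not_mem_of_isPrime hs hs₂, p₂, ?_⟩
      apply IsFractionRing.injective B F
      rw [map_mul, map_mul, map_mul, ← ea, ← e₂, map_natCast]
      field_simp
    obtain ⟨k1, k2⟩ := h3 B 𝔫 P (r : B) a hnp hr0 hP ha0 hgen
      (fun Q hQ hQn _ => hirr Q P hQ hP hQn hPn) hdiv
    exact ⟨a, haP, ha0, k1, k2⟩
  · obtain ⟨k1, k2⟩ := h3 B 𝔫 P (r : B) (r : B) hnp hr0 hP hr0 gC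
      (fun Q hQ hQn _ => hirr Q P hQ hP hQn hPn) ⟨1, hone, by rw [one_mul]⟩
    exact ⟨(r : B), gC.1, hr0, k1, k2⟩

end Fermat.Agent.S36.Reg
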