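import Fermat.Agent.S36.Reg.Interface
import Fermat.Agent.S36.AtAPI
import Fermat.Agent.S36.Crit

/-!
# S36 / Reg : **REG-CMID** at a cuspidal point of `P_mid`, `h = X2 / X` is a unit and `h - 1`
divides `r` (helper19)
-/

set_option autoImplicit false

namespace Fermat.Agent.S36.Reg

open Fermat.Agent.KL Fermat.Agent.S36

namespace CuspMidAux

open Finset

/-- the abstract polynomial identity. -/
theorem sum_identity {F : Type*} [Field F] (D : ℕ → F) (n : ℕ) (h : F) (h1 : h ≠ 1)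
    (hi : ∑ a ∈ range n, D a = 0) (hii : ∑ a ∈ range n, D a * h ^ a = 0) :
    ∑ a ∈ range n, (a : F) * D a =
      (1 - h) * ∑ a ∈ range n, D a * ∑ i ∈ range a, ∑ j ∈ range i, h ^ j := by
  have hS : ∑ a ∈ range n, D a * ∑ i ∈ range a, h ^ i = 0 := by
    have : (∑ a ∈ range n, D a * ∑ i ∈ range a, h ^ i) * (h - 1) = 0 := by
      rw [Finset.sum_mul]
      calc ∑ a ∈ range n, D a * (∑ i ∈ range a, h ^ i) * (h - 1)
          = ∑ a ∈ range n, (D a * h ^ a - D a) := by
            refine Finset.sum_congr rfl fun a _ => ?_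
            rw [mul_assoc, geom_sum_mul]; ring
        _ = 0 := by rw [Finset.sum_sub_distrib, hi, hii, sub_zero]
    exact (mul_eq_zero.1 this).resolve_right (sub_ne_zero.2 h1)
  have hterm : ∀ a : ℕ, (a : F) - ∑ i ∈ range a, h ^ i =
      (1 - h) * ∑ i ∈ range a, ∑ j ∈ range i, h ^ j := by
    intro a
    rw [Finset.mul_sum]
    have : (a : F) = ∑ i ∈ range a, (1 : F) := by simp
    rw [this, ← Finset.sum_sub_distrib]
    refine Finset.sum_congr rfl fun i _ => ?_
    have := geom_sum_mul h i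
    linear_combination this
  calc ∑ a ∈ range n, (a : F) * D a
      = ∑ a ∈ range n, (a : F) * D a - ∑ a ∈ range n, D a * ∑ i ∈ range a, h ^ i := by
        rw [hS, sub_zero]
    _ = ∑ a ∈ range n, D a * ((a : F) - ∑ i ∈ range a, h ^ i) := by
        rw [← Finset.sum_sub_distrib]
        refine Finset.sum_congr rfl fun a _ => ?_
        ring
    _ = _ := by
        rw [Finset.mul_sum]
        refine Finset.sum_congr rfl fun a _ => ?_
        rw [hterm]; ring

theorem sum_split {M : Type*} [AddCommMonoid M] (f : ℕ → M) (k : ℕ) :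
    ∑ a ∈ range (k + 2 + 2), f a = ∑ a ∈ range (k + 1), f (a + 2) + f 1 + f 0 + f (k + 3) := by
  show ∑ a ∈ range (k + 3 + 1), f a = _
  rw [Finset.sum_range_succ f (k + 3)]
  show ∑ a ∈ range (k + 2 + 1), f a + _ = _
  rw [Finset.sum_range_succ' f (k + 2), Finset.sum_range_succ' (fun a => f (a + 1)) (k + 1)]

variable {B F : Type*} [CommRing B] [Field F] [Algebra B F] {P : Ideal B} [P.IsPrime]

theorem intAt_sum {ι : Type*} (s : Finset ι) (f : ι → F) (h : ∀ i ∈ s, IntAt P (f i)) :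
    IntAt P (∑ i ∈ s, f i) := by
  classical
  induction s using Finset.induction_on with
  | empty => simpa using intAt_zero
  | insert a s ha ih =>
    rw [Finset.sum_insert ha]
    exact (h a (Finset.mem_insert_self a s)).add (ih fun i hi => h i (Finset.mem_insert_of_mem hi))

theorem intAt_natCast (n : ℕ) : IntAt P (n : F) := by
  rw [← map_natCast (algebraMap B F) n]
  exact intAt_algebraMap _

end CuspMidAux

open CuspMidAux Finset in
theorem cuspMid : Stmt_CuspMid := by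
  intro B F _ _ _ _ _ _ _ 𝔫 PM r c X X1 X2 u u' F1 h𝔫 hPM hle hr hr0 hc hmin hX0 hXpos hφ1 hφ2 hne
    hu hu' hX1 hX1' hXM hXX hcF hXF hX1F hunr
  obtain ⟨k, rfl⟩ : ∃ k, r = k + 2 := ⟨r - 2, by omega⟩
  -- basic facts
  have hXint : IntAt 𝔫 X := hXpos.intAt
  have hu0 : u ≠ 0 := hu.ne_zero
  have hu'0 : u' ≠ 0 := hu'.ne_zero
  have hX1pos : PosAt 𝔫 X1 := by
    rw [hX1]; exact (hXpos.pow (by omega)).mul_intAt hu.intAt
  have hX1int : IntAt 𝔫 X1 := hX1pos.intAt
  have huF : u ∈ F1 := by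
    have : u = X1 / X ^ (k + 2) := by rw [hX1]; field_simp
    rw [this]
    exact F1.div_mem hX1F (F1.pow_mem hXF _)
  -- `h`
  set h : F := X2 / X with hh
  have hXh : X * h = X2 := by rw [hh]; field_simp
  have hhr : h ^ (k + 2) = u / u' := by
    rw [hh, div_pow, div_eq_div_iff (pow_ne_zero _ hX0) hu'0, ← hX1', hX1, mul_comm]
  have hhU : UnitAt 𝔫 h := UnitAt.of_pow' (m := k + 2) (by omega) (hhr ▸ hu.div hu')
  refine ⟨hhU, ?_⟩
  have hh1 : h ≠ 1 := by
    intro h1
    apply hne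
    rw [← hXh, h1, mul_one]
  have hT0 : h - 1 ≠ 0 := sub_ne_zero.2 hh1
  have hTM : PosAt PM (h - 1) := by
    have : h - 1 = (X2 - X) * X⁻¹ := by rw [hh]; field_simp
    rw [this]
    exact hXX.mul_intAt hXM.inv.intAt
  have hTint : IntAt 𝔫 (h - 1) := hhU.intAt.sub intAt_one
  have hTpos : PosAt 𝔫 (h - 1) := hTint.posAt_of_posAt hle hTM
  -- the coefficients
  set C : ℕ → F := fun a => ∑ b ∈ range (k + 2 + 2), algebraMap B F (c a b) * X1 ^ b with hCdef
  set E : ℕ → F := fun a => ∑ b ∈ range (k + 2 + 1), algebraMap B F (c a (b + 1)) * X1 ^ b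
    with hEdef
  have hphi : ∀ Z : F, phiStar (k + 2) c Z X1 = ∑ a ∈ range (k + 2 + 2), C a * Z ^ a := by
    intro Z
    unfold phiStar
    refine Finset.sum_congr rfl fun a _ => ?_
    rw [hCdef, Finset.sum_mul]
    refine Finset.sum_congr rfl fun b _ => ?_
    ring
  have hCE : ∀ a, C a = algebraMap B F (c a 0) + X1 * E a := by
    intro a
    simp only [hCdef, hEdef]
    rw [Finset.sum_range_succ', Finset.mul_sum, pow_zero, mul_one, add_comm]
    congr 1
    refine Finset.sum_congr rfl fun b _ => ?_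
    ring
  have hEint : ∀ a, IntAt 𝔫 (E a) := fun a =>
    intAt_sum _ _ fun b _ => (intAt_algebraMap _).mul (hX1int.pow b)
  have hEF : ∀ a, E a ∈ F1 := fun a =>
    F1.sum_mem fun b _ => F1.mul_mem (hcF _ _) (F1.pow_mem hX1F b)
  have hC0 : C 0 = X1 ^ (k + 2 + 1) := by
    simp only [hCdef]
    rw [Finset.sum_range_succ, Finset.sum_eq_zero, hc.left_top, map_one, one_mul, zero_add]
    intro b hb
    rw [hc.left b (by have := Finset.mem_range.1 hb; omega), map_zero, zero_mul]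
  set D : ℕ → F := fun a => C a * X ^ a / X ^ (k + 2 + 1) with hDdef
  have hXp : X ^ (k + 2 + 1) ≠ 0 := pow_ne_zero _ hX0
  have hD0 : D 0 = X * (X ^ (k * k + 4 * k + 2) * u ^ (k + 3)) := by
    simp only [hDdef]
    rw [hC0, div_eq_iff hXp, hX1]
    ring
  have hDmid : ∀ a, a ≤ k + 1 → D (a + 1) = u * E (a + 1) * X ^ a := by
    intro a ha
    simp only [hDdef]
    rw [hCE, hc.right (a + 1) (by omega), map_zero, zero_add, div_eq_iff hXp, hX1]
    ring
  have hDtop : D (k + 3) = 1 + X1 * E (k + 3) := by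
    simp only [hDdef]
    rw [hCE, hc.right_top, map_one, mul_div_assoc, div_self hXp, mul_one]
  have hDint : ∀ a ∈ range (k + 2 + 2), IntAt 𝔫 (D a) := by
    intro a ha
    have ha' := Finset.mem_range.1 ha
    rcases Nat.eq_zero_or_pos a with rfl | hpos
    · rw [hD0]
      exact hXint.mul ((hXint.pow _).mul (hu.intAt.pow _))
    · obtain ⟨a', rfl⟩ : ∃ a', a = a' + 1 := ⟨a - 1, by omega⟩
      by_cases hlt : a' ≤ k + 1
      · rw [hDmid a' hlt]
        exact (hu.intAt.mul (hEint _)).mul (hXint.pow _)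
      · have : a' + 1 = k + 3 := by omega
        rw [this, hDtop]
        exact intAt_one.add (hX1int.mul (hEint _))
  -- (i), (ii)
  have hi : ∑ a ∈ range (k + 2 + 2), D a = 0 := by
    simp only [hDdef]
    rw [← Finset.sum_div, ← hphi, hφ1, zero_div]
  have hii : ∑ a ∈ range (k + 2 + 2), D a * h ^ a = 0 := by
    have : ∀ a, D a * h ^ a = C a * X2 ^ a / X ^ (k + 2 + 1) := by
      intro a
      simp only [hDdef]
      rw [← hXh, mul_pow]
      ring
    simp only [this]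
    rw [← Finset.sum_div, ← hphi, hφ2, zero_div]
  have hG := sum_identity D (k + 2 + 2) h hh1 hi hii
  set κ : F := ∑ a ∈ range (k + 2 + 2), D a * ∑ i ∈ range a, ∑ j ∈ range i, h ^ j with hκ
  have hκint : IntAt 𝔫 κ :=
    intAt_sum _ _ fun a ha => (hDint a ha).mul
      (intAt_sum _ _ fun i _ => intAt_sum _ _ fun j _ => hhU.intAt.pow j)
  set G : F := ∑ a ∈ range (k + 2 + 2), (a : F) * D a with hGdef
  -- `G = r * D_{r+1} + X * w5`
  set w5 : F := ∑ a ∈ range (k + 1), ((a : F) + 1) * (u * E (a + 2) * X ^ a) -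
    X ^ (k * k + 4 * k + 2) * u ^ (k + 3) with hw5
  have hw5int : IntAt 𝔫 w5 :=
    (intAt_sum _ _ fun a _ => ((intAt_natCast a).add intAt_one).mul
      ((hu.intAt.mul (hEint _)).mul (hXint.pow a))).sub ((hXint.pow _).mul (hu.intAt.pow _))
  have hw5F : w5 ∈ F1 :=
    F1.sub_mem (F1.sum_mem fun a _ => F1.mul_mem (F1.add_mem (natCast_mem F1 a) F1.one_mem)
      (F1.mul_mem (F1.mul_mem huF (hEF _)) (F1.pow_mem hXF a)))
      (F1.mul_mem (F1.pow_mem hXF _) (F1.pow_mem huF _))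
  have hGw : G = ((k + 2 : ℕ) : F) * D (k + 3) + X * w5 := by
    have e1 : ∑ a ∈ range (k + 1), D (a + 2) + D 1 + D 0 + D (k + 3) = 0 := by
      rw [← hi, sum_split]
    have e2 : G = ∑ a ∈ range (k + 1), ((a + 2 : ℕ) : F) * D (a + 2) + D 1 +
        ((k + 3 : ℕ) : F) * D (k + 3) := by
      rw [hGdef, sum_split]
      simp
    have e3 : X * ∑ a ∈ range (k + 1), ((a : F) + 1) * (u * E (a + 2) * X ^ a) =
        ∑ a ∈ range (k + 1), ((a + 2 : ℕ) : F) * D (a + 2) - ∑ a ∈ range (k + 1), D (a + 2) := by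
      rw [Finset.mul_sum, ← Finset.sum_sub_distrib]
      refine Finset.sum_congr rfl fun a ha => ?_
      rw [hDmid (a + 1) (by have := Finset.mem_range.1 ha; omega)]
      push_cast
      ring
    rw [e2, hw5, mul_sub, e3]
    rw [hD0] at e1
    push_cast
    linear_combination e1
  -- `r ∈ PM`
  have hrF : ((k + 2 : ℕ) : F) = algebraMap B F ((k + 2 : ℕ) : B) := (map_natCast _ _).symm
  have hrF0 : ((k + 2 : ℕ) : F) ≠ 0 := by
    rw [hrF]
    intro h0
    exact hr0 (IsFractionRing.injective B F (by rw [h0, map_zero]))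
  have hDtopU : UnitAt 𝔫 (D (k + 3)) := by
    rw [hDtop]; exact (hX1pos.mul_intAt (hEint _)).one_add_unitAt
  have h1h : 1 - h = -(h - 1) := by ring
  have hGpos : PosAt 𝔫 G := by
    rw [hG, h1h]; exact hTpos.neg.mul_intAt hκint
  have hr𝔫 : ((k + 2 : ℕ) : B) ∈ 𝔫 := by
    by_contra hnot
    have h1 : UnitAt 𝔫 ((k + 2 : ℕ) : F) := by rw [hrF]; exact unitAt_algebraMap hnot
    have h2 : UnitAt 𝔫 G := by
      rw [hGw]; exact (h1.mul hDtopU).add_posAt (hXpos.mul_intAt hw5int)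
    exact h2.not_posAt hGpos
  have hrPM : ((k + 2 : ℕ) : B) ∈ PM := by
    obtain ⟨P, hP, hPle⟩ := Ideal.exists_minimalPrimes_le
      (I := Ideal.span {((k + 2 : ℕ) : B)}) (J := 𝔫) ((Ideal.span_singleton_le_iff_mem _).2 hr𝔫)
    rw [← hmin P hP hPle]
    exact (Ideal.span_singleton_le_iff_mem _).1 hP.1.2
  have hrposM : PosAt PM ((k + 2 : ℕ) : F) := by rw [hrF]; exact posAt_algebraMap hrPM
  have hGM : PosAt PM G := by
    rw [hG, h1h]; exact hTM.neg.mul_intAt (hκint.mono hle)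
  have hXw5 : PosAt PM (X * w5) := by
    have : X * w5 = G - ((k + 2 : ℕ) : F) * D (k + 3) := by rw [hGw]; ring
    rw [this]
    exact hGM.sub (hrposM.mul_intAt (hDtopU.intAt.mono hle))
  have hw5M : PosAt PM w5 := by
    have : w5 = X⁻¹ * (X * w5) := by field_simp
    rw [this]
    exact hXM.inv.intAt.mul_posAt hXw5
  have hw6M : IntAt PM (w5 / ((k + 2 : ℕ) : F)) := hunr w5 hw5F hw5M
  -- (CRIT)
  have hw6 : IntAt 𝔫 (w5 / ((k + 2 : ℕ) : F)) := by
    obtain ⟨s, hs, b, hb⟩ := hw5int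
    obtain ⟨s₁, hs₁, b₁, hb₁⟩ := Crit.crit_loc (F := F) 𝔫 ((k + 2 : ℕ) : B) hr0
      (algebraMap B F s * w5 / ((k + 2 : ℕ) : F)) 1
      ⟨b, by rw [pow_one, ← hrF, div_mul_cancel₀ _ hrF0, hb]⟩
      (by
        intro P hP hPle
        rw [hmin P hP hPle]
        obtain ⟨s'', hs'', b'', hb''⟩ := hw6M
        refine ⟨s'', hs'', s * b'', ?_⟩
        rw [map_mul, ← hb'']
        ring)
    refine ⟨s * s₁, mul_not_mem_of_isPrime hs hs₁, b₁, ?_⟩
    rw [← hb₁, map_mul]
    ring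
  have hεU : UnitAt 𝔫 (D (k + 3) + X * (w5 / ((k + 2 : ℕ) : F))) :=
    hDtopU.add_posAt (hXpos.mul_intAt hw6)
  have hε0 := hεU.ne_zero
  have hfin : ((k + 2 : ℕ) : F) / (h - 1) =
      -κ * (D (k + 3) + X * (w5 / ((k + 2 : ℕ) : F)))⁻¹ := by
    have e : ((k + 2 : ℕ) : F) * (D (k + 3) + X * (w5 / ((k + 2 : ℕ) : F))) = (1 - h) * κ := by
      rw [← hG, hGw]
      field_simp
    rw [div_eq_iff hT0, eq_comm, mul_assoc, mul_comm _ (h - 1), ← mul_assoc,
      ← div_eq_mul_inv, div_eq_iff hε0, e]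
    ring
  rw [hfin]
  exact hκint.neg.mul hεU.inv.intAt

end Fermat.Agent.S36.Reg
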