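import Fermat.Agent.S36.Reg.Interface
import Fermat.Agent.S36.AtAPI

/-!
# S36 / Reg : REG-DED, a normal one-dimensional component (helper59)
-/

set_option autoImplicit false

namespace Fermat.Agent.S36.Reg

open Fermat.Agent.KL Fermat.Agent.S36

/-- `B ⧸ P` has dimension `≤ 1`. -/
theorem ded_dim (R B : Type) [CommRing R] [CommRing B] [Algebra R B] [Algebra.IsIntegral R B]
    (P : Ideal B) [P.IsPrime]
    (h : ∀ 𝔮 : Ideal R, 𝔮.IsPrime → P.under R < 𝔮 → 𝔮.IsMaximal) :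
    Ring.DimensionLEOne (B ⧸ P) := by
  refine ⟨fun {Q} hQ0 hQ => ?_⟩
  have hsurj : Function.Surjective (Ideal.Quotient.mk P) := Ideal.Quotient.mk_surjective
  set Q' : Ideal B := Q.comap (Ideal.Quotient.mk P) with hQ'
  have : Q'.IsPrime := Ideal.comap_isPrime _ _
  have hmap : Q'.map (Ideal.Quotient.mk P) = Q := Ideal.map_comap_of_surjective _ hsurj Q
  have hle : P ≤ Q' := by
    intro x hx
    rw [hQ', Ideal.mem_comap, Ideal.Quotient.eq_zero_iff_mem.2 hx]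
    exact Q.zero_mem
  have hlt : P < Q' := by
    refine lt_of_le_of_ne hle fun heq => hQ0 ?_
    rw [← hmap, ← heq, Ideal.map_quotient_self]
  obtain ⟨x, hxQ, hxP⟩ := SetLike.exists_of_lt hlt
  have h1 : P.under R < Q'.under R :=
    Ideal.comap_lt_comap_of_integral_mem_sdiff hle ⟨hxQ, hxP⟩ (Algebra.IsIntegral.isIntegral x)
  have h2 : (Q'.under R).IsMaximal := h _ inferInstance h1
  have h3 : Q'.IsMaximal := Ideal.isMaximal_of_isIntegral_of_isMaximal_comap Q' h2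
  rcases Ideal.map_eq_top_or_isMaximal_of_surjective _ hsurj h3 with h4 | h4
  · exact absurd (hmap ▸ h4) hQ.ne_top
  · exact hmap ▸ h4

/-- the closed points of a Dedekind domain are locally principal. -/
theorem ded_prin (D : Type) [CommRing D] [IsDedekindDomain D] (𝔪 : Ideal D) (h𝔪 : 𝔪.IsPrime)
    (h0 : 𝔪 ≠ ⊥) : ∃ b ∈ 𝔪, ∃ s, s ∉ 𝔪 ∧ ∀ x ∈ 𝔪, b ∣ s * x := by
  obtain ⟨b, hb, hb2⟩ := Ideal.exists_mem_pow_notMem_pow_succ 𝔪 h0 h𝔪.ne_top 1
  rw [pow_one] at hb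
  obtain ⟨J, hJ⟩ := Ideal.dvd_span_singleton.2 hb
  have hJn : ¬ J ≤ 𝔪 := by
    intro hle
    apply hb2
    have : b ∈ 𝔪 * J := hJ ▸ Ideal.mem_span_singleton_self b
    rw [pow_succ, pow_one]
    exact Ideal.mul_mono_right hle this
  obtain ⟨s, hsJ, hs⟩ := SetLike.not_le_iff_exists.1 hJn
  refine ⟨b, hb, s, hs, fun x hx => ?_⟩
  have : s * x ∈ Ideal.span {b} := by
    rw [hJ, mul_comm s x]
    exact Ideal.mul_mem_mul hx hsJ
  exact Ideal.mem_span_singleton.1 this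

/-- (NOR) for a normal component. -/
theorem ded_nor (B F : Type) [CommRing B] [IsDomain B] [Field F] [Algebra B F]
    [IsFractionRing B F] (P : Ideal B) [P.IsPrime] (hic : IsIntegrallyClosed (B ⧸ P))
    (𝔫 : Ideal B) (hP : P ≤ 𝔫) (m : ℕ) (hm : 0 < m) : NorAt (F := F) m 𝔫 P := by
  rintro x e ⟨s0, hs0, p, hp, hx⟩ ⟨se, hse, pe, hpe, he⟩ ⟨s1, hs1, p1, hp1, h1⟩
  have hinj := IsFractionRing.injective B F
  have hseP : se ∉ P := fun h => hse (hP h)
  -- the relation in `B`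
  have hrel : se * p ^ m - pe * s0 ^ m ∈ P := by
    have h2 : s1 * (se * p ^ m - pe * s0 ^ m) = se * s0 ^ m * p1 := by
      apply hinj
      simp only [map_mul, map_sub, map_pow]
      rw [← hx, ← he, ← h1]
      ring
    have h3 : s1 * (se * p ^ m - pe * s0 ^ m) ∈ P := h2 ▸ P.mul_mem_left _ hp1
    exact ((inferInstance : P.IsPrime).mem_or_mem h3).resolve_left hs1
  -- pass to the fraction field of `B ⧸ P`
  let K := FractionRing (B ⧸ P)
  let φ : B →+* K := (algebraMap (B ⧸ P) K).comp (Ideal.Quotient.mk P)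
  have hφ0 : ∀ b : B, φ b = 0 ↔ b ∈ P := by
    intro b
    show algebraMap (B ⧸ P) K (Ideal.Quotient.mk P b) = 0 ↔ _
    rw [map_eq_zero_iff _ (IsFractionRing.injective (B ⧸ P) K), Ideal.Quotient.eq_zero_iff_mem]
  have hs0' : φ s0 ≠ 0 := fun h => hs0 ((hφ0 _).1 h)
  have hrel' : φ se * φ p ^ m = φ pe * φ s0 ^ m := by
    have := (hφ0 _).2 hrel
    simpa only [map_sub, map_mul, map_pow, sub_eq_zero] using this
  obtain ⟨k, rfl⟩ : ∃ k, m = k + 1 := ⟨m - 1, by omega⟩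
  have hpow : (φ se * (φ p / φ s0)) ^ (k + 1)
      = algebraMap (B ⧸ P) K (Ideal.Quotient.mk P (se ^ k * pe)) := by
    have : algebraMap (B ⧸ P) K (Ideal.Quotient.mk P (se ^ k * pe)) = φ se ^ k * φ pe := by
      show φ (se ^ k * pe) = _
      rw [map_mul, map_pow]
    rw [this, mul_pow, div_pow, pow_succ (φ se) k, mul_assoc, mul_div_assoc', hrel',
      mul_div_assoc, div_self (pow_ne_zero _ hs0'), mul_one]
  have hint : IsIntegral (B ⧸ P) (φ se * (φ p / φ s0)) :=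
    IsIntegral.of_pow (Nat.succ_pos k) (hpow ▸ isIntegral_algebraMap)
  obtain ⟨cbar, hc⟩ := IsIntegrallyClosed.isIntegral_iff.1 hint
  obtain ⟨c, rfl⟩ := Ideal.Quotient.mk_surjective cbar
  have hc' : se * p - c * s0 ∈ P := by
    rw [← hφ0, map_sub, map_mul, map_mul, sub_eq_zero]
    have : φ c = φ se * (φ p / φ s0) := hc
    rw [this, mul_assoc, div_mul_cancel₀ _ hs0']
  have hse0 : algebraMap B F se ≠ 0 := algebraMap_ne_zero_of_not_mem hse
  refine ⟨algebraMap B F c / algebraMap B F se, ⟨se, hse, c, by field_simp⟩,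
    s0 * se, mul_not_mem_of_isPrime hs0 hseP, se * p - c * s0, hc', ?_⟩
  rw [map_sub, map_mul, map_mul, map_mul, ← hx]
  field_simp

theorem ded : Stmt_Ded := by
  intro R B F _ _ _ _ _ _ _ _ _ P _ hic hdim 𝔫 h𝔫 hP
  refine ⟨?_, fun m hm => ded_nor B F P hic 𝔫 hP m hm⟩
  by_cases hPn : 𝔫 = P
  · refine ⟨0, 𝔫.zero_mem, fun x hx => ⟨1, 0, (Ideal.ne_top_iff_one 𝔫).1 h𝔫.ne_top, ?_⟩⟩
    rw [one_mul, zero_mul, sub_zero]
    exact hPn ▸ hx
  · have := ded_dim R B P hdim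
    have : IsDedekindDomain (B ⧸ P) := { }
    have hsurj : Function.Surjective (Ideal.Quotient.mk P) := Ideal.Quotient.mk_surjective
    have hmem : ∀ y : B, Ideal.Quotient.mk P y ∈ 𝔫.map (Ideal.Quotient.mk P) ↔ y ∈ 𝔫 := by
      intro y
      exact Ideal.mem_quotient_iff_mem hP
    have hprime : (𝔫.map (Ideal.Quotient.mk P)).IsPrime := by
      refine Ideal.map_isPrime_of_surjective hsurj ?_
      rw [Ideal.mk_ker]
      exact hP
    have hne : 𝔫.map (Ideal.Quotient.mk P) ≠ ⊥ := by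
      intro h0
      apply hPn
      refine le_antisymm (fun y hy => ?_) hP
      have := (hmem y).2 hy
      rw [h0, Ideal.mem_bot] at this
      exact Ideal.Quotient.eq_zero_iff_mem.1 this
    obtain ⟨bbar, hb, sbar, hs, hx⟩ := ded_prin (B ⧸ P) _ hprime hne
    obtain ⟨b, rfl⟩ := hsurj bbar
    obtain ⟨s, rfl⟩ := hsurj sbar
    refine ⟨b, (hmem b).1 hb, fun x hxn => ?_⟩
    obtain ⟨ebar, he⟩ := hx _ ((hmem x).2 hxn)
    obtain ⟨e, rfl⟩ := hsurj ebar
    refine ⟨s, e, fun h => hs ((hmem s).2 h), ?_⟩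
    rw [← Ideal.Quotient.eq_zero_iff_mem, map_sub, map_mul, map_mul, he]
    ring

end Fermat.Agent.S36.Reg
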