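import Fermat.Agent.S36.Reg.Interface
import Fermat.Agent.S36.Crit

/-!
# S36 / Reg : REG-PRINC, the local principality criterion
-/

set_option autoImplicit false

namespace Fermat.Agent.S36.Reg

open Fermat.Agent.KL Fermat.Agent.S36

theorem princ : Stmt_Princ := by
  intro B _ _ _ _ 𝔫 P ϖ a h𝔫 hϖ hP ha hgen huniq hdiv
  obtain ⟨s₀, hs₀, hs₀a⟩ := hdiv
  have hPprime : P.IsPrime := hP.1.1
  have second : ∀ y ∈ P, ∃ s : B, s ∉ 𝔫 ∧ a ∣ s * y := by
    intro y hy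
    refine Crit.dvd_loc 𝔫 a ha y ?_
    intro Q hQ hQn
    have hQprime : Q.IsPrime := hQ.1.1
    have haQ : a ∈ Q := (Ideal.span_singleton_le_iff_mem _).1 hQ.1.2
    have h1 : s₀ * ϖ ∈ Q := Ideal.mem_of_dvd Q hs₀a haQ
    have hϖQ : ϖ ∈ Q := (hQprime.mem_or_mem h1).resolve_left fun h => hs₀ (hQn h)
    have hht : Q.height ≤ 1 := Ideal.height_le_one_of_isPrincipal_of_mem_minimalPrimes _ Q hQ
    have hQmin : Q ∈ (Ideal.span {ϖ}).minimalPrimes :=
      Ideal.mem_minimalPrimes_of_height_le ((Ideal.span_singleton_le_iff_mem _).2 hϖQ)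
        (hht.trans (Ideal.one_le_height_span_singleton_of_mem_nonZeroDivisors
          (mem_nonZeroDivisors_of_ne_zero hϖ)))
    have hQP : Q = P := huniq Q hQmin hQn haQ
    rw [hQP]
    exact hgen.2 y hy
  refine ⟨?_, second⟩
  intro x y hxy
  have h1 : x * y ∈ P := Ideal.mem_of_dvd P hxy hgen.1
  rcases hPprime.mem_or_mem h1 with hx | hy
  · obtain ⟨s, hs, hsx⟩ := second x hx
    exact ⟨s, hs, Or.inl hsx⟩
  · obtain ⟨s, hs, hsy⟩ := second y hy
    exact ⟨s, hs, Or.inr hsy⟩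

end Fermat.Agent.S36.Reg
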