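import Fermat.Agent.S36.Reg.Interface2
import Fermat.Agent.S36.Reg.Princ
import Fermat.Agent.S36.Crit

/-!
# S36 / Reg : REG2-INTO and REG2-PRO (criteria in the language of the vertical valuations)
-/

set_option autoImplicit false
set_option linter.unusedSectionVars false

namespace Fermat.Agent.S36.Reg

open Fermat.Agent.KL Fermat.Agent.S36

section PrincOAux

variable {B F : Type*} [CommRing B] [IsDomain B] [Field F] [Algebra B F] [IsFractionRing B F]

/-- `b ∈ P ↔ b` vanishes at `P`. -/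
theorem PrincO_mem_iff_posAt (P : Ideal B) [hP : P.IsPrime] (b : B) :
    b ∈ P ↔ PosAt P (algebraMap B F b) := by
  constructor
  · intro hb
    exact posAt_algebraMap hb
  · rintro ⟨s, hs, p, hp, e⟩
    have h1 : s * b = p := by
      apply IsFractionRing.injective B F
      rw [map_mul, e]
    have h2 : s * b ∈ P := h1 ▸ hp
    exact (hP.mem_or_mem h2).resolve_left hs

/-- **uniqueness of centres**. -/
theorem cen_unique (P Q : Ideal B) (o : F → ℤ) (hP : P.IsPrime) (hQ : Q.IsPrime)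
    (h1 : IsCen Q o) (h2 : IsCen P o) : Q = P := by
  ext b
  rw [PrincO_mem_iff_posAt (F := F) Q b, PrincO_mem_iff_posAt (F := F) P b, (h1 _).1, (h2 _).1]

/-- non-negative valuation implies regularity at the centre. -/
theorem PrincO_intAt_of_nonneg (P : Ideal B) (o : F → ℤ) (h : IsCen P o) (z : F) (hz : z ≠ 0)
    (h0 : 0 ≤ o z) : IntAt P z := by
  rcases h0.lt_or_eq with h1 | h1
  · exact ((h z).1.2 (Or.inr h1)).intAt
  · exact ((h z).2.2 ⟨hz, h1.symm⟩).intAt

end PrincOAux

theorem intO : Stmt_IntO := by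
  intro B F _ _ _ _ _ _ _ ϖ ord 𝔫 z k h𝔫 hϖ hcen hint hord
  by_cases hz : z = 0
  · rw [hz]
    exact intAt_zero
  obtain ⟨s, hs, p, e⟩ := hint
  obtain ⟨s', hs', b, hb⟩ := Crit.crit_loc (F := F) 𝔫 ϖ hϖ (algebraMap B F s * z) k
    ⟨p, by rw [← e]; ring⟩ (by
      intro P hP _
      obtain ⟨X, hX⟩ := hcen P hP
      obtain ⟨t, ht, c, hc⟩ := PrincO_intAt_of_nonneg P (ord X) hX z hz (hord X)
      refine ⟨t, ht, s * c, ?_⟩
      rw [map_mul, ← hc]
      ring)
  refine ⟨s * s', mul_not_mem_of_isPrime hs hs', b, ?_⟩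
  rw [← hb, map_mul]
  ring

theorem princO : Stmt_PrincO := by
  intro B F _ _ _ _ _ _ _ ϖ ord 𝔫 P X a h𝔫 hϖ hmul hcen hP hPn hX ha hinta hintd hordX hordY
  have hPprime : P.IsPrime := hP.1.1
  obtain ⟨s, hs, a', e⟩ := hinta
  have hs0 : algebraMap B F s ≠ 0 := algebraMap_ne_zero_of_not_mem hs
  have hsP : s ∉ P := fun h => hs (hPn h)
  have ha' : a' ≠ 0 := by
    rintro rfl
    rw [map_zero] at e
    exact (mul_ne_zero hs0 ha) e
  have hposa : PosAt P a := (hX a).1.2 (Or.inr (by rw [hordX]; exact one_pos))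
  have ha'P : a' ∈ P := by
    rw [PrincO_mem_iff_posAt (F := F) P a', ← e]
    exact (intAt_algebraMap s).mul_posAt hposa
  have hgen : LocGen a' P := by
    refine ⟨ha'P, ?_⟩
    intro y hy
    by_cases hy0 : y = 0
    · exact ⟨1, one_not_mem_of_isPrime, by rw [hy0, mul_zero]; exact dvd_zero _⟩
    have hιy : algebraMap B F y ≠ 0 := by
      intro h
      exact hy0 ((IsFractionRing.injective B F) (by rw [h, map_zero]))
    have h1 : 0 < ord X (algebraMap B F y) := by
      rcases (hX _).1.1 (posAt_algebraMap (F := F) hy) with h | h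
      · exact absurd h hιy
      · exact h
    have hq0 : algebraMap B F y / a ≠ 0 := div_ne_zero hιy ha
    have h2 : ord X (algebraMap B F y) = ord X (algebraMap B F y / a) + ord X a := by
      rw [← hmul X _ _ hq0 ha, div_mul_cancel₀ _ ha]
    have h3 : 0 ≤ ord X (algebraMap B F y / a) := by
      rw [hordX] at h2
      omega
    obtain ⟨b, hb, c, hc⟩ := PrincO_intAt_of_nonneg P (ord X) hX _ hq0 h3
    refine ⟨s * b, mul_not_mem_of_isPrime hsP hb, c, ?_⟩
    apply IsFractionRing.injective B F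
    rw [map_mul, map_mul, map_mul, ← e, ← hc]
    field_simp
  have huniq : ∀ Q ∈ (Ideal.span {ϖ}).minimalPrimes, Q ≤ 𝔫 → a' ∈ Q → Q = P := by
    intro Q hQ hQn haQ
    have hQprime : Q.IsPrime := hQ.1.1
    obtain ⟨Y, hY⟩ := hcen Q hQ
    have hsQ : s ∉ Q := fun h => hs (hQn h)
    have h1 : PosAt Q a := by
      have h2 : a = (algebraMap B F s)⁻¹ * algebraMap B F a' := by
        rw [← e]
        field_simp
      rw [h2]
      exact (unitAt_algebraMap (F := F) hsQ).inv.intAt.mul_posAt (posAt_algebraMap haQ)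
    have h3 : 0 < ord Y a := by
      rcases (hY a).1.1 h1 with h | h
      · exact absurd h ha
      · exact h
    have hYX : Y = X := by
      by_contra hne
      rw [hordY Y hne] at h3
      exact lt_irrefl _ h3
    subst hYX
    exact cen_unique P Q (ord Y) hPprime hQprime hY hX
  have hdiv : ∃ t : B, t ∉ 𝔫 ∧ a' ∣ t * ϖ := by
    obtain ⟨t, ht, c, hc⟩ := hintd
    refine ⟨s * t, mul_not_mem_of_isPrime hs ht, c, ?_⟩
    apply IsFractionRing.injective B F
    rw [map_mul, map_mul, map_mul, ← e, ← hc]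
    field_simp
  obtain ⟨h1, h2⟩ := princ B 𝔫 P ϖ a' h𝔫 hϖ hP ha' hgen huniq hdiv
  exact ⟨a', ha'P, ha', h1, h2⟩

end Fermat.Agent.S36.Reg
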