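import Fermat.Agent.S36.Reg.Interface2

/-!
# S36 / Reg : REG2-C, the cuspidal closed points in the language of the three valuations
-/

set_option autoImplicit false

namespace Fermat.Agent.S36.Reg

open Fermat.Agent.KL Fermat.Agent.S36 Polynomial

section Aux

variable {B F : Type*} [CommRing B] [IsDomain B] [Field F] [Algebra B F] [IsFractionRing B F]

omit [IsDomain B] in
theorem RegC_posAt_algebraMap_iff {P : Ideal B} [hP : P.IsPrime] (b : B) :
    PosAt P (algebraMap B F b) ↔ b ∈ P := by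
  constructor
  · rintro ⟨s, hs, p, hp, e⟩
    have h1 : s * b = p := by
      apply IsFractionRing.injective B F
      rw [map_mul, e]
    exact (hP.mem_or_mem (h1 ▸ hp : s * b ∈ P)).resolve_left hs
  · exact fun hb => posAt_algebraMap hb

omit [IsDomain B] in
theorem RegC_cen_unique {P Q : Ideal B} [P.IsPrime] [Q.IsPrime] {o : F → ℤ} (hP : IsCen P o)
    (hQ : IsCen Q o) : P = Q := by
  ext b
  rw [← RegC_posAt_algebraMap_iff (F := F) (P := P), ← RegC_posAt_algebraMap_iff (F := F) (P := Q),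
    (hP _).1, (hQ _).1]

omit [IsDomain B] [IsFractionRing B F] in
theorem RegC_intAt_of_ord {P : Ideal B} [P.IsPrime] {o : F → ℤ} (hP : IsCen P o) {z : F}
    (hz : z = 0 ∨ 0 ≤ o z) : IntAt P z := by
  by_cases h0 : z = 0
  · rw [h0]
    exact intAt_zero
  · have h1 : 0 ≤ o z := hz.resolve_left h0
    rcases h1.lt_or_eq with h2 | h2
    · exact ((hP z).1.2 (Or.inr h2)).intAt
    · exact ((hP z).2.2 ⟨h0, h2.symm⟩).intAt

theorem RegC_inv_sub {P : Ideal B} [P.IsPrime] {a b : F} (hb : UnitAt P b) (h : PosAt P (a - b)) :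
    UnitAt P a ∧ PosAt P (a⁻¹ - b⁻¹) := by
  have ha : UnitAt P a := hb.of_sub_posAt h
  refine ⟨ha, ?_⟩
  have ha0 := ha.ne_zero
  have hb0 := hb.ne_zero
  have e : a⁻¹ - b⁻¹ = -(a - b) * (a⁻¹ * b⁻¹) := by
    field_simp
    ring
  rw [e]
  exact h.neg.mul_intAt (ha.inv.mul hb.inv).intAt

omit [CommRing B] [IsDomain B] [Algebra B F] [IsFractionRing B F] in
theorem RegC_ord_div {ord : Fin 3 → F → ℤ} (hmul : OrdMul ord) (X : Fin 3) {x y : F} (hx : x ≠ 0)
    (hy : y ≠ 0) : ord X (x / y) = ord X x - ord X y := by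
  have h := hmul X (x / y) y (div_ne_zero hx hy) hy
  rw [div_mul_cancel₀ _ hy] at h
  omega

omit [IsDomain B] [IsFractionRing B F] in
/-- `y ∈ P`, `ord w = 1` : `y / w` is regular at `P`. -/
theorem RegC_intAt_div {P : Ideal B} [P.IsPrime] {ord : Fin 3 → F → ℤ} (hmul : OrdMul ord)
    {X : Fin 3} (hP : IsCen P (ord X)) {w : F} (hw : w ≠ 0) (hw1 : ord X w = 1) {y : B}
    (hy : y ∈ P) : IntAt P (algebraMap B F y / w) := by
  apply RegC_intAt_of_ord hP
  by_cases h0 : algebraMap B F y = 0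
  · left
    rw [h0, zero_div]
  · right
    have h1 : VPos (ord X) (algebraMap B F y) := (hP _).1.1 (posAt_algebraMap hy)
    have h2 : 0 < ord X (algebraMap B F y) := h1.resolve_left h0
    rw [RegC_ord_div hmul X h0 hw, hw1]
    omega

theorem RegC_locGen {B F : Type} [CommRing B] [IsDomain B] [Field F] [Algebra B F]
    [IsFractionRing B F] {P : Ideal B} [P.IsPrime] {ord : Fin 3 → F → ℤ} (hmul : OrdMul ord)
    {X : Fin 3} (hP : IsCen P (ord X)) {r : ℕ} (hr0 : (r : F) ≠ 0) (hr1 : ord X (r : F) = 1)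
    (hrP : (r : B) ∈ P) : LocGen (r : B) P := by
  refine ⟨hrP, fun y hy => ?_⟩
  obtain ⟨s, hs, p, e⟩ := RegC_intAt_div hmul hP hr0 hr1 hy
  refine ⟨s, hs, p, ?_⟩
  apply IsFractionRing.injective B F
  rw [map_mul, map_mul, map_natCast, ← e]
  field_simp

end Aux

theorem regC (h : Stmt_Chart2) : Stmt_RegC := by
  intro A₀ B F _ _ _ _ _ _ _ _ _ r ord F1 J hr hrB hconst hmul hcen hordr 𝔫 h𝔫 hr𝔫 hpos
  obtain ⟨PA, hPA, cA⟩ := hcen.2 0
  obtain ⟨PM, hPM, cM⟩ := hcen.2 1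
  obtain ⟨PC, hPC, cC⟩ := hcen.2 2
  have pA : PA.IsPrime := hPA.1.1
  have pM : PM.IsPrime := hPM.1.1
  have pC : PC.IsPrime := hPC.1.1
  obtain ⟨hr0, hrA, hrM, hrC⟩ := hordr
  -- the coefficients
  choose cB hcB using fun a b => hconst (J.c a b)
  have inj := IsFractionRing.injective B F
  have shape : PhiShape r cB := by
    refine ⟨fun b hb => inj ?_, inj ?_, fun a ha => inj ?_, inj ?_, inj ?_⟩
    · rw [hcB, J.shape.left b hb, map_zero, map_zero]
    · rw [hcB, J.shape.left_top, map_one, map_one]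
    · rw [hcB, J.shape.right a ha, map_zero, map_zero]
    · rw [hcB, J.shape.right_top, map_one, map_one]
    · rw [hcB, J.shape.one_one, map_neg, map_neg, map_one, map_one]
  have hphi : ∀ Z W : F, phiStar r cB Z W = phiStar r J.c Z W := by
    intro Z W
    simp only [phiStar, hcB]
  -- the minimal primes
  have hiff : ∀ P : Ideal B, P ∈ (Ideal.span {(r : B)}).minimalPrimes ↔
      P = PA ∨ P = PM ∨ P = PC := by
    intro P
    constructor
    · intro hP
      have : P.IsPrime := hP.1.1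
      obtain ⟨X, hX⟩ := hcen.1 P hP
      fin_cases X
      · exact Or.inl (RegC_cen_unique hX cA)
      · exact Or.inr (Or.inl (RegC_cen_unique hX cM))
      · exact Or.inr (Or.inr (RegC_cen_unique hX cC))
    · rintro (rfl | rfl | rfl)
      · exact hPA
      · exact hPM
      · exact hPC
  have mem : ∀ P ∈ (Ideal.span {(r : B)}).minimalPrimes, (r : B) ∈ P := fun P hP =>
    hP.1.2 (Ideal.mem_span_singleton_self _)
  -- at `PA`
  have a0 : UnitAt PA J.j := (cA _).2.2 J.a0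
  have a1 := RegC_inv_sub (a0.pow r) ((cA _).1.2 J.a1)
  have a2 := RegC_inv_sub (a1.1.pow r) ((cA _).1.2 J.a2)
  -- at `PM`
  have m0 : UnitAt PM J.j := (cM _).2.2 J.m0
  have m1 := RegC_inv_sub (m0.pow r) ((cM _).1.2 J.m1)
  have m2 := RegC_inv_sub m0 ((cM _).1.2 (Or.inr (by rw [J.m2.2]; norm_num)))
  -- at `PC`
  have c0 : UnitAt PC J.j2 := (cC _).2.2 J.c0
  have c1 := RegC_inv_sub (c0.pow r) ((cC _).1.2 J.c1)
  have c2 := RegC_inv_sub (c1.1.pow r) ((cC _).1.2 J.c2)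
  have hj0 : J.j ≠ 0 := J.a0.1
  have hj20 : J.j2 ≠ 0 := J.c0.1
  -- the uniformiser at `PM`
  have hw : J.j2⁻¹ / J.j⁻¹ - 1 = (-1) * (J.j2 - J.j) / J.j2 := by
    field_simp
    ring
  have hw0 : (-1) * (J.j2 - J.j) / J.j2 ≠ 0 :=
    div_ne_zero (mul_ne_zero (by norm_num) J.m2.1) hj20
  have hw1 : ord 1 ((-1) * (J.j2 - J.j) / J.j2) = 1 := by
    have e1 : ord 1 (-1 : F) = 0 := ((cM _).2.1 (unitAt_one (P := PM)).neg).2
    have e2 : ord 1 J.j2 = 0 := ((cM _).2.1 m2.1).2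
    rw [RegC_ord_div hmul 1 (mul_ne_zero (by norm_num) J.m2.1) hj20,
      hmul 1 _ _ (by norm_num) J.m2.1, e1, e2, J.m2.2]
    norm_num
  refine h B F PA PM PC r cB J.j⁻¹ J.j1⁻¹ J.j2⁻¹ F1 hr hrB shape hiff (inv_ne_zero hj0) ?_
    (by rw [hphi]; exact J.phi10) (by rw [hphi]; exact J.phi01) (by rw [hphi]; exact J.phi21)
    a0.inv (by rw [inv_pow]; exact a1.2) (by rw [inv_pow]; exact a2.2)
    m0.inv (by rw [inv_pow]; exact m1.2) m2.2
    c0.inv (by rw [inv_pow]; exact c1.2) (by rw [inv_pow]; exact c2.2)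
    (RegC_locGen hmul cA hr0 hrA (mem PA hPA)) (RegC_locGen hmul cC hr0 hrC (mem PC hPC))
    (fun y hy => by rw [hw]; exact RegC_intAt_div hmul cM hw0 hw1 hy)
    (fun a b => by rw [hcB]; exact J.const_mem _) (F1.inv_mem J.j_mem) (F1.inv_mem J.j1_mem)
    (fun y hy hyp => ?_) 𝔫 h𝔫 hr𝔫 hpos
  · intro e
    exact J.m2.1 (sub_eq_zero.2 (inv_injective e))
  · apply RegC_intAt_of_ord cM
    by_cases h0 : y = 0
    · left
      rw [h0, zero_div]
    · right
      have h1 := (J.unram y hy ((cM _).1.1 hyp)).resolve_left h0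
      rw [RegC_ord_div hmul 1 h0 hr0, hrM]
      omega

end Fermat.Agent.S36.Reg
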