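import Fermat.Agent.S36.Reg.Interface2

/-!
# S36 / Reg : REG2-CHART, one abstract chart, all closed points of the special fibre.
-/

set_option autoImplicit false

namespace Fermat.Agent.S36.Reg

open Fermat.Agent.KL Fermat.Agent.S36 Polynomial

theorem regChart (h1 : Stmt_IntAdj) (h2 : Stmt_IntO) (h3 : Stmt_RegNC) (h4 : Stmt_RegC)
    (h5 : Stmt_JDich) : Stmt_RegChart := by
  intro A₀ B F _ _ _ _ _ _ _ _ _ r ord F1 J X Y ϖ x d e u v hr hrF hϖ hconst hx hmul hcen hordr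
    hbez hj 𝔫 hmax hmem
  -- `ϖ = r`
  have hϖr : ϖ = (r : B) := by
    apply IsFractionRing.injective B F
    rw [hϖ, map_natCast]
  subst hϖr
  have hrB : (r : B) ≠ 0 := by
    intro h0
    apply hrF
    rw [← hϖ, h0, map_zero]
  have hprime : 𝔫.IsPrime := hmax.isPrime
  obtain ⟨hdich, hcusp⟩ := h5 A₀ B F J.j x d e u v 𝔫 hprime hconst hx hbez hj
  have hC : PosAt 𝔫 J.j⁻¹ → LocIrred (r : B) 𝔫 ∧
      ∀ P ∈ (Ideal.span {(r : B)}).minimalPrimes, P ≤ 𝔫 → PrincAt 𝔫 P := fun hpos =>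
    h4 A₀ B F r ord F1 J hr hrB hconst hmul hcen hordr 𝔫 hmax hmem hpos
  have hthird : PosAt 𝔫 (aeval x d) → LocIrred (r : B) 𝔫 := fun hp => (hC (hcusp hp)).1
  rcases hdich with hint | hpos
  · -- non-cuspidal
    have hr1 : (0 : ℤ) ≤ (r : ℤ) - 1 := by
      have : (2 : ℤ) ≤ (r : ℤ) := by exact_mod_cast hr
      linarith
    have key : ∀ z : F, IntJ A₀ r J.j z → (∀ Y, 0 ≤ ord Y z) → IntAt 𝔫 z := by
      intro z hz hord
      obtain ⟨k, hk⟩ := hz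
      have hk' : IntAt 𝔫 ((r : F) ^ k * z) := h1 A₀ B F 𝔫 J.j _ hprime hconst hint hk
      refine h2 B F (r : B) ord 𝔫 z k hprime hrB hcen.1 ?_ hord
      rw [hϖ]
      exact hk'
    have hnn : ∀ (z : F) (a b c : ℤ), OrdIs ord z a b c → 0 ≤ a → 0 ≤ b → 0 ≤ c →
        ∀ Y, 0 ≤ ord Y z := by
      intro z a b c hz ha hb hc Y
      obtain ⟨-, h0, h1', h2'⟩ := hz
      fin_cases Y
      · show 0 ≤ ord 0 z
        rw [h0]; exact ha
      · show 0 ≤ ord 1 z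
        rw [h1']; exact hb
      · show 0 ≤ ord 2 z
        rw [h2']; exact hc
    have hA : IntAt 𝔫 X.aA := key _ X.intA (hnn _ _ _ _ X.ordA zero_le_one le_rfl le_rfl)
    have hCc : IntAt 𝔫 X.aC := key _ X.intC (hnn _ _ _ _ X.ordC le_rfl le_rfl zero_le_one)
    have hM : IntAt 𝔫 X.aM := key _ X.intM (hnn _ _ _ _ X.ordM le_rfl hr1 le_rfl)
    have hB : IntAt 𝔫 Y.β := key _ Y.intB (hnn _ _ _ _ Y.ordB le_rfl zero_le_one le_rfl)
    have hε : UnitAt 𝔫 X.ε := by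
      rcases X.hε with h | h
      · rw [h]; exact unitAt_one
      · rw [h]; exact unitAt_one.neg
    have hτ : UnitAt 𝔫 Y.τ :=
      unitAt_iff.2 ⟨h1 A₀ B F 𝔫 J.j _ hprime hconst hint Y.intT,
        h1 A₀ B F 𝔫 J.j _ hprime hconst hint Y.intT', Y.τ_ne⟩
    have hprod : X.aA * X.aC * X.aM = algebraMap B F (r : B) := by
      rw [hϖ]; exact X.prod
    obtain ⟨hres1, hres2⟩ := h3 B F (r : B) ord r X.aA X.aC X.aM X.ε Y.β Y.τ 𝔫 hr hrB hmul hcen
      hprod X.ordA X.ordC X.ordM Y.ordB X.congM X.congA Y.cong hmax hmem hA hCc hM hB hε hτ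
    exact ⟨hres1, hres2, hthird⟩
  · -- cuspidal
    obtain ⟨hc1, hc2⟩ := hC hpos
    exact ⟨Or.inl hc1, hc2, hthird⟩

end Fermat.Agent.S36.Reg
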