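import Fermat.Agent.S36.Reg.Interface2
import Fermat.Agent.S36.Crit

/-!
# S36 / Reg : REG2-NC.  A non-cuspidal closed point: (TRI) and principality of the vertical primes.
-/

set_option autoImplicit false

namespace Fermat.Agent.S36.Reg

open Fermat.Agent.KL Fermat.Agent.S36

section Gen

variable {B F : Type} [CommRing B] [IsDomain B] [Field F] [Algebra B F] [IsFractionRing B F]

local notation "ι" => algebraMap B F

theorem RegNC_posAt_iff {P : Ideal B} [hP : P.IsPrime] (b : B) : PosAt P (ι b) ↔ b ∈ P := by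
  constructor
  · rintro ⟨s, hs, p, hp, e⟩
    have h1 : s * b = p := by
      apply IsFractionRing.injective B F
      rw [map_mul, e]
    exact (hP.mem_or_mem (h1 ▸ hp)).resolve_left hs
  · exact fun h => posAt_algebraMap h

theorem RegNC_cen_unique {P Q : Ideal B} [P.IsPrime] [Q.IsPrime] {o : F → ℤ} (hP : IsCen P o)
    (hQ : IsCen Q o) : P = Q := by
  ext b
  rw [← RegNC_posAt_iff (F := F), ← RegNC_posAt_iff (F := F) (P := Q), (hP _).1, (hQ _).1]

/-- (K) the key lemma. -/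
theorem RegNC_key [IsNoetherianRing B] [IsIntegrallyClosed B] {ϖ : B} (hϖ : ϖ ≠ 0) (𝔫 : Ideal B)
    [𝔫.IsPrime] {z : F} (hz0 : z ≠ 0) (hz : IntAt 𝔫 z) (hz' : IntAt 𝔫 (ι ϖ / z))
    (hnu : ¬ UnitAt 𝔫 z) : ∃ Q ∈ (Ideal.span {ϖ}).minimalPrimes, Q ≤ 𝔫 ∧ PosAt Q z := by
  by_contra hcon
  push Not at hcon
  apply hnu
  rw [unitAt_iff]
  refine ⟨hz, ?_, hz0⟩
  obtain ⟨s, hs, b, hb⟩ := hz'
  obtain ⟨s', hs', b', hb'⟩ := Crit.crit_loc (F := F) 𝔫 ϖ hϖ (ι s * z⁻¹) 1
    ⟨b, by rw [pow_one, ← hb]; ring⟩ (fun P hP hPn => by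
      have : P.IsPrime := hP.1.1
      have hu : UnitAt P z := (hz.mono hPn).unitAt_of_not_posAt (hcon P hP hPn)
      obtain ⟨t, ht, c, hc⟩ := hu.inv.intAt
      exact ⟨t, ht, s * c, by rw [map_mul, ← hc]; ring⟩)
  exact ⟨s * s', mul_not_mem_of_isPrime hs hs', b', by rw [map_mul, ← hb']; ring⟩

end Gen

section Ord

variable {F : Type} [Field F] {ord : Fin 3 → F → ℤ}

theorem RegNC_ord_one (h : OrdMul ord) (X : Fin 3) : ord X 1 = 0 := by
  have := h X 1 1 one_ne_zero one_ne_zero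
  rw [mul_one] at this
  linarith

theorem RegNC_ord_pow (h : OrdMul ord) (X : Fin 3) {x : F} (hx : x ≠ 0) (n : ℕ) :
    ord X (x ^ n) = n * ord X x := by
  induction n with
  | zero => simp [RegNC_ord_one h X]
  | succ n ih =>
    rw [pow_succ, h X _ _ (pow_ne_zero n hx) hx, ih]
    push_cast
    ring

end Ord

theorem regNC (h1 : Stmt_IntO) (h2 : Stmt_PrincO) : Stmt_RegNC := by
  intro B F _ _ _ _ _ _ _ ϖ ord r aA aC aM ε β τ 𝔫 hr hϖ hmul hcen hprod hA hC hM hβ hcM hcA hcβ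
    h𝔫 _hϖ𝔫 iA iC iM iβ uε uτ
  have h𝔫p : 𝔫.IsPrime := h𝔫.isPrime
  obtain ⟨hcen1, hcen2⟩ := hcen
  obtain ⟨PA, hPA, cA⟩ := hcen2 0
  obtain ⟨PM, hPM, cM⟩ := hcen2 1
  obtain ⟨PC, hPC, cC⟩ := hcen2 2
  have hPAp : PA.IsPrime := hPA.1.1
  have hPMp : PM.IsPrime := hPM.1.1
  have hPCp : PC.IsPrime := hPC.1.1
  obtain ⟨hA0, hA1, hA2, hA3⟩ := hA
  obtain ⟨hC0, hC1, hC2, hC3⟩ := hC
  obtain ⟨hM0, hM1, hM2, hM3⟩ := hM
  obtain ⟨hβ0, hβ1, hβ2, hβ3⟩ := hβ
  have hr1 : 0 < r - 1 := by omega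
  have hr1' : (0 : ℤ) < (r : ℤ) - 1 := by
    have : (2 : ℤ) ≤ (r : ℤ) := by exact_mod_cast hr
    linarith
  -- every minimal prime is one of the three
  have hthree : ∀ P ∈ (Ideal.span {ϖ}).minimalPrimes, P = PA ∨ P = PM ∨ P = PC := by
    intro P hP
    have : P.IsPrime := hP.1.1
    obtain ⟨X, hX⟩ := hcen1 P hP
    fin_cases X
    · exact Or.inl (RegNC_cen_unique hX cA)
    · exact Or.inr (Or.inl (RegNC_cen_unique hX cM))
    · exact Or.inr (Or.inr (RegNC_cen_unique hX cC))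
  have dA : algebraMap B F ϖ / aA = aC * aM := by rw [← hprod]; field_simp
  have dC : algebraMap B F ϖ / aC = aA * aM := by rw [← hprod]; field_simp
  have dM : algebraMap B F ϖ / aM = aA * aC := by rw [← hprod]; field_simp
  -- not a unit => the component passes through `𝔫`
  have leA : ¬ UnitAt 𝔫 aA → PA ≤ 𝔫 := by
    intro hnu
    obtain ⟨Q, hQ, hQn, hpos⟩ := RegNC_key hϖ 𝔫 hA0 iA (by rw [dA]; exact iC.mul iM) hnu
    rcases hthree Q hQ with rfl | rfl | rfl
    · exact hQn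
    · rcases ((cM aA).1.1 hpos) with h | h
      · exact absurd h hA0
      · rw [hA2] at h; exact absurd h (lt_irrefl _)
    · rcases ((cC aA).1.1 hpos) with h | h
      · exact absurd h hA0
      · rw [hA3] at h; exact absurd h (lt_irrefl _)
  have leC : ¬ UnitAt 𝔫 aC → PC ≤ 𝔫 := by
    intro hnu
    obtain ⟨Q, hQ, hQn, hpos⟩ := RegNC_key hϖ 𝔫 hC0 iC (by rw [dC]; exact iA.mul iM) hnu
    rcases hthree Q hQ with rfl | rfl | rfl
    · rcases ((cA aC).1.1 hpos) with h | h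
      · exact absurd h hC0
      · rw [hC1] at h; exact absurd h (lt_irrefl _)
    · rcases ((cM aC).1.1 hpos) with h | h
      · exact absurd h hC0
      · rw [hC2] at h; exact absurd h (lt_irrefl _)
    · exact hQn
  have leM : ¬ UnitAt 𝔫 aM → PM ≤ 𝔫 := by
    intro hnu
    obtain ⟨Q, hQ, hQn, hpos⟩ := RegNC_key hϖ 𝔫 hM0 iM (by rw [dM]; exact iA.mul iC) hnu
    rcases hthree Q hQ with rfl | rfl | rfl
    · rcases ((cA aM).1.1 hpos) with h | h
      · exact absurd h hM0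
      · rw [hM1] at h; exact absurd h (lt_irrefl _)
    · exact hQn
    · rcases ((cC aM).1.1 hpos) with h | h
      · exact absurd h hM0
      · rw [hM3] at h; exact absurd h (lt_irrefl _)
  -- the component passes through `𝔫` => positive at `𝔫`
  have posA : PA ≤ 𝔫 → PosAt 𝔫 aA := fun h =>
    iA.posAt_of_posAt h ((cA aA).1.2 (Or.inr (by rw [hA1]; exact one_pos)))
  have posC : PC ≤ 𝔫 → PosAt 𝔫 aC := fun h =>
    iC.posAt_of_posAt h ((cC aC).1.2 (Or.inr (by rw [hC3]; exact one_pos)))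
  have iε : IntAt 𝔫 ε := uε.intAt
  have posAC : PM ≤ 𝔫 → PosAt 𝔫 (aA - ε * aC) := fun h =>
    (iA.sub (iε.mul iC)).posAt_of_posAt h ((cM _).1.2 hcM)
  have posMC : PA ≤ 𝔫 → PosAt 𝔫 (aM - aC ^ (r - 1)) := fun h =>
    (iM.sub (iC.pow _)).posAt_of_posAt h ((cA _).1.2 hcA)
  -- (TRI)
  have triC : PA ≤ 𝔫 → PM ≤ 𝔫 → PC ≤ 𝔫 := by
    intro hA' hM'
    apply leC
    intro hu
    have h3 : PosAt 𝔫 (ε * aC) := by
      have := (posA hA').sub (posAC hM')
      rwa [sub_sub_cancel] at this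
    exact (uε.mul hu).not_posAt h3
  have triM : PA ≤ 𝔫 → PC ≤ 𝔫 → PM ≤ 𝔫 := by
    intro hA' hC'
    apply leM
    intro hu
    have h3 : PosAt 𝔫 aM := by
      have := (posMC hA').add ((posC hC').pow hr1)
      rwa [sub_add_cancel] at this
    exact hu.not_posAt h3
  have triA : PM ≤ 𝔫 → PC ≤ 𝔫 → PA ≤ 𝔫 := by
    intro hM' hC'
    apply leA
    intro hu
    have h3 : PosAt 𝔫 aA := by
      have := (posAC hM').add (iε.mul_posAt (posC hC'))
      rwa [sub_add_cancel] at this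
    exact hu.not_posAt h3
  refine ⟨?_, ?_⟩
  · by_cases hall : PA ≤ 𝔫 ∧ PM ≤ 𝔫 ∧ PC ≤ 𝔫
    · right
      intro P hP
      rcases hthree P hP with rfl | rfl | rfl
      · exact hall.1
      · exact hall.2.1
      · exact hall.2.2
    · left
      intro P Q hP hQ hPn hQn
      rcases hthree P hP with rfl | rfl | rfl <;> rcases hthree Q hQ with rfl | rfl | rfl
      · rfl
      · exact absurd ⟨hPn, hQn, triC hPn hQn⟩ hall
      · exact absurd ⟨hPn, triM hPn hQn, hQn⟩ hall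
      · exact absurd ⟨hQn, hPn, triC hQn hPn⟩ hall
      · rfl
      · exact absurd ⟨triA hPn hQn, hPn, hQn⟩ hall
      · exact absurd ⟨hQn, triM hQn hPn, hPn⟩ hall
      · exact absurd ⟨triA hQn hPn, hQn, hPn⟩ hall
      · rfl
  · intro P hP hPn
    rcases hthree P hP with rfl | rfl | rfl
    · refine h2 B F ϖ ord 𝔫 P 0 aA h𝔫p hϖ hmul hcen1 hP hPn cA hA0 iA
        (by rw [dA]; exact iC.mul iM) hA1 ?_
      intro Y hY
      fin_cases Y
      · exact absurd rfl hY
      · exact hA2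
      · exact hA3
    · -- the middle component
      set g : F := β ^ (r - 1) / aM with hg
      have hg0 : g ≠ 0 := div_ne_zero (pow_ne_zero _ hβ0) hM0
      have hgM : g * aM = β ^ (r - 1) := by rw [hg]; field_simp
      have hordg : ∀ X, ord X g = 0 := by
        intro X
        have e1 := hmul X g aM hg0 hM0
        rw [hgM, RegNC_ord_pow hmul X hβ0] at e1
        have hc : ((r - 1 : ℕ) : ℤ) = (r : ℤ) - 1 := by
          rw [Nat.cast_sub (by omega)]; simp
        rw [hc] at e1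
        fin_cases X
        · simp only [Fin.zero_eta] at e1 ⊢
          rw [hβ1, hM1] at e1; linarith
        · simp only [Fin.mk_one] at e1 ⊢
          rw [hβ2, hM2] at e1; linarith
        · simp only [Fin.reduceFinMk] at e1 ⊢
          rw [hβ3, hM3] at e1; linarith
      have ig : IntAt 𝔫 g := by
        refine h1 B F ϖ ord 𝔫 g 1 h𝔫p hϖ hcen1 ?_ (fun X => (hordg X).ge)
        have e : algebraMap B F ϖ ^ 1 * g = aA * aC * β ^ (r - 1) := by
          rw [pow_one, ← hprod, hg]; field_simp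
        rw [e]
        exact (iA.mul iC).mul (iβ.pow _)
      have ug : UnitAt 𝔫 g :=
        uτ.of_sub_posAt ((ig.sub uτ.intAt).posAt_of_posAt hPn ((cM _).1.2 hcβ))
      have e2 : algebraMap B F ϖ / β = aA * aC * β ^ (r - 2) * g⁻¹ := by
        have hpow : β ^ (r - 1) = β ^ (r - 2) * β := by
          rw [← pow_succ]; congr 1; omega
        rw [← hprod, hg, hpow]
        field_simp
      refine h2 B F ϖ ord 𝔫 P 1 β h𝔫p hϖ hmul hcen1 hP hPn cM hβ0 iβ
        (by rw [e2]; exact ((iA.mul iC).mul (iβ.pow _)).mul ug.inv.intAt) hβ2 ?_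
      intro Y hY
      fin_cases Y
      · exact hβ1
      · exact absurd rfl hY
      · exact hβ3
    · refine h2 B F ϖ ord 𝔫 P 2 aC h𝔫p hϖ hmul hcen1 hP hPn cC hC0 iC
        (by rw [dC]; exact iA.mul iM) hC3 ?_
      intro Y hY
      fin_cases Y
      · exact hC1
      · exact hC2
      · exact absurd rfl hY

end Fermat.Agent.S36.Reg
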