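import Fermat.Agent.S36.Reg.Interface

/-!
# S36 / Reg : REG-CH1.  Chart 1: (TRI) and principality of the three vertical primes.
-/

set_option autoImplicit false

namespace Fermat.Agent.S36.Reg

open Fermat.Agent.KL Fermat.Agent.S36

/-- `a ∣ ϖ`, `Q` minimal over `a` : then `Q` is minimal over `ϖ` (Krull). -/
theorem CH1_minimal_of_dvd {B : Type} [CommRing B] [IsDomain B] [IsNoetherianRing B]
    {a ϖ : B} (hϖ : ϖ ≠ 0) (h : a ∣ ϖ) {Q : Ideal B} (hQ : Q ∈ (Ideal.span {a}).minimalPrimes) :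
    Q ∈ (Ideal.span {ϖ}).minimalPrimes := by
  have : Q.IsPrime := hQ.1.1
  have haQ : a ∈ Q := (Ideal.span_singleton_le_iff_mem _).1 hQ.1.2
  have hht : Q.height ≤ 1 := Ideal.height_le_one_of_isPrincipal_of_mem_minimalPrimes _ Q hQ
  exact Ideal.mem_minimalPrimes_of_height_le
    ((Ideal.span_singleton_le_iff_mem _).2 (Ideal.mem_of_dvd Q h haQ))
    (hht.trans (Ideal.one_le_height_span_singleton_of_mem_nonZeroDivisors
      (mem_nonZeroDivisors_of_ne_zero hϖ)))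

theorem chart1 (h : Stmt_Princ) : Stmt_Chart1 := by
  intro B _ _ _ _ ϖ aA aC aM β γ τ τ' ε ε' PA PM PC r hr hϖ hmin hprod hAM hAC hCA hCM hMM hMA hMC
    hgA hgC hgβ hε hεε' hMr hβ hγ hττ' 𝔫 h𝔫 hϖ𝔫
  have h𝔫p : 𝔫.IsPrime := h𝔫.isPrime
  have hPA : PA ∈ (Ideal.span {ϖ}).minimalPrimes := (hmin PA).2 (Or.inl rfl)
  have hPM : PM ∈ (Ideal.span {ϖ}).minimalPrimes := (hmin PM).2 (Or.inr (Or.inl rfl))
  have hPC : PC ∈ (Ideal.span {ϖ}).minimalPrimes := (hmin PC).2 (Or.inr (Or.inr rfl))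
  have hPAp : PA.IsPrime := hPA.1.1
  have hPMp : PM.IsPrime := hPM.1.1
  have hPCp : PC.IsPrime := hPC.1.1
  have hA0 : aA ≠ 0 := by rintro rfl; exact hϖ (by rw [← hprod]; ring)
  have hC0 : aC ≠ 0 := by rintro rfl; exact hϖ (by rw [← hprod]; ring)
  have hM0 : aM ≠ 0 := by rintro rfl; exact hϖ (by rw [← hprod]; ring)
  have h1𝔫 : (1 : B) ∉ 𝔫 := fun h1 => h𝔫p.ne_top ((Ideal.eq_top_iff_one _).2 h1)
  have hr1 : r - 1 ≠ 0 := by omega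
  -- (a)
  have hprA := h B 𝔫 PA ϖ aA h𝔫p hϖ hPA hA0 hgA
    (by
      intro Q hQ _ haQ
      rcases (hmin Q).1 hQ with rfl | rfl | rfl
      · rfl
      · exact absurd haQ hAM
      · exact absurd haQ hAC)
    ⟨1, h1𝔫, ⟨aC * aM, by rw [← hprod]; ring⟩⟩
  have hprC := h B 𝔫 PC ϖ aC h𝔫p hϖ hPC hC0 hgC
    (by
      intro Q hQ _ haQ
      rcases (hmin Q).1 hQ with rfl | rfl | rfl
      · exact absurd haQ hCA
      · exact absurd haQ hCM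
      · rfl)
    ⟨1, h1𝔫, ⟨aA * aM, by rw [← hprod]; ring⟩⟩
  have hleA : aA ∈ 𝔫 → PA ≤ 𝔫 := by
    intro ha y hy
    obtain ⟨s, hs, hd⟩ := hprA.2 y hy
    exact (h𝔫p.mem_or_mem (Ideal.mem_of_dvd 𝔫 hd ha)).resolve_left hs
  have hleC : aC ∈ 𝔫 → PC ≤ 𝔫 := by
    intro ha y hy
    obtain ⟨s, hs, hd⟩ := hprC.2 y hy
    exact (h𝔫p.mem_or_mem (Ideal.mem_of_dvd 𝔫 hd ha)).resolve_left hs
  -- (b)
  have hleM : aM ∈ 𝔫 → PM ≤ 𝔫 := by
    intro ha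
    obtain ⟨Q, hQ, hQ𝔫⟩ := Ideal.exists_minimalPrimes_le
      (I := Ideal.span {aM}) (J := 𝔫) ((Ideal.span_singleton_le_iff_mem _).2 ha)
    have hQ' : Q ∈ (Ideal.span {ϖ}).minimalPrimes :=
      CH1_minimal_of_dvd hϖ ⟨aA * aC, by rw [← hprod]; ring⟩ hQ
    have haQ : aM ∈ Q := (Ideal.span_singleton_le_iff_mem _).1 hQ.1.2
    rcases (hmin Q).1 hQ' with rfl | rfl | rfl
    · exact absurd haQ hMA
    · exact hQ𝔫
    · exact absurd haQ hMC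
  -- (c)
  have hMAC : PM ≤ 𝔫 → PA ≤ 𝔫 → PC ≤ 𝔫 := by
    intro hm ha
    apply hleC
    have h1 : ε * aC ∈ 𝔫 := by
      have := 𝔫.sub_mem (ha hgA.1) (hm hε)
      simpa using this
    have h2 : aC = ε' * (ε * aC) := by linear_combination (-aC) * hεε'
    rw [h2]
    exact 𝔫.mul_mem_left _ h1
  have hMCA : PM ≤ 𝔫 → PC ≤ 𝔫 → PA ≤ 𝔫 := by
    intro hm hc
    apply hleA
    have := 𝔫.add_mem (hm hε) (𝔫.mul_mem_left ε (hc hgC.1))
    simpa using this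
  have hACM : PA ≤ 𝔫 → PC ≤ 𝔫 → PM ≤ 𝔫 := by
    intro ha hc
    apply hleM
    have := 𝔫.add_mem (ha hMr) (𝔫.pow_mem_of_mem (hc hgC.1) (r - 1) (Nat.pos_of_ne_zero hr1))
    simpa using this
  refine ⟨?_, ?_⟩
  · by_cases hall : PA ≤ 𝔫 ∧ PM ≤ 𝔫 ∧ PC ≤ 𝔫
    · right
      intro P hP
      rcases (hmin P).1 hP with rfl | rfl | rfl
      · exact hall.1
      · exact hall.2.1
      · exact hall.2.2
    · left
      intro P Q hP hQ hP𝔫 hQ𝔫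
      rcases (hmin P).1 hP with rfl | rfl | rfl <;> rcases (hmin Q).1 hQ with rfl | rfl | rfl
      · rfl
      · exact absurd ⟨hP𝔫, hQ𝔫, hMAC hQ𝔫 hP𝔫⟩ hall
      · exact absurd ⟨hP𝔫, hACM hP𝔫 hQ𝔫, hQ𝔫⟩ hall
      · exact absurd ⟨hQ𝔫, hP𝔫, hMAC hP𝔫 hQ𝔫⟩ hall
      · rfl
      · exact absurd ⟨hMCA hP𝔫 hQ𝔫, hP𝔫, hQ𝔫⟩ hall
      · exact absurd ⟨hQ𝔫, hACM hQ𝔫 hP𝔫, hP𝔫⟩ hall
      · exact absurd ⟨hMCA hQ𝔫 hP𝔫, hQ𝔫, hP𝔫⟩ hall
      · rfl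
  · intro P hP hP𝔫
    rcases (hmin P).1 hP with rfl | rfl | rfl
    · exact ⟨aA, hgA.1, hA0, hprA.1, hprA.2⟩
    · -- (d)
      have hτ : ∀ J : Ideal B, J.IsPrime → τ ∉ J := by
        intro J hJ hτJ
        apply hJ.ne_top
        rw [Ideal.eq_top_iff_one, ← hττ']
        exact J.mul_mem_right _ hτJ
      have hγ𝔫 : γ ∉ 𝔫 := by
        intro hγn
        apply hτ 𝔫 h𝔫p
        have := 𝔫.sub_mem hγn (hP𝔫 hγ)
        simpa using this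
      have hβ0 : β ≠ 0 := by
        rintro rfl
        rw [zero_pow hr1] at hβ
        have hγ0 : γ = 0 := (mul_eq_zero.1 hβ.symm).resolve_left hM0
        exact hγ𝔫 (hγ0 ▸ 𝔫.zero_mem)
      have hpr := h B 𝔫 P ϖ β h𝔫p hϖ hPM hβ0 hgβ
        (by
          intro Q hQ hQ𝔫 hβQ
          have hQp : Q.IsPrime := hQ.1.1
          have h1 : aM * γ ∈ Q := by
            rw [← hβ]
            exact Q.pow_mem_of_mem hβQ (r - 1) (Nat.pos_of_ne_zero hr1)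
          have h2 : aM ∈ Q := (hQp.mem_or_mem h1).resolve_right fun hg => hγ𝔫 (hQ𝔫 hg)
          rcases (hmin Q).1 hQ with rfl | rfl | rfl
          · exact absurd h2 hMA
          · rfl
          · exact absurd h2 hMC)
        ⟨γ, hγ𝔫, by
          have h1 : γ * ϖ = aA * aC * β ^ (r - 1) := by rw [hβ, ← hprod]; ring
          rw [h1]
          exact Dvd.dvd.mul_left (dvd_pow_self β hr1) _⟩
      exact ⟨β, hgβ.1, hβ0, hpr.1, hpr.2⟩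
    · exact ⟨aC, hgC.1, hC0, hprC.1, hprC.2⟩

end Fermat.Agent.S36.Reg
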