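import Fermat.Agent.S36.Reg.Interface
import Fermat.Agent.S36.AtAPI

/-!
# S36 / Reg, task REG-CTRI (helper77): a cuspidal point lies on one component
-/

set_option autoImplicit false
set_option linter.style.haveILetI false

namespace Fermat.Agent.S36.Reg

open Fermat.Agent.KL Fermat.Agent.S36

section

variable {B F : Type} [CommRing B] [IsDomain B] [Field F] [Algebra B F] [IsFractionRing B F]

/-- the basic lemma (K). -/
theorem CTRI_K {𝔫 P : Ideal B} [𝔫.IsPrime] [P.IsPrime] (hP : P ≤ 𝔫) {y v : F} {k : ℕ}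
    (hy : UnitAt P y) (hy' : PosAt 𝔫 y) (hv : IntAt 𝔫 v) (hk : 2 ≤ k)
    (h : PosAt P (y - y ^ k * v)) : False := by
  have h1 : PosAt 𝔫 (-(y ^ (k - 1) * v)) := ((hy'.pow (by omega)).mul_intAt hv).neg
  have h2 : UnitAt P (1 + -(y ^ (k - 1) * v)) := h1.one_add_unitAt.mono hP
  have h3 : y - y ^ k * v = y * (1 + -(y ^ (k - 1) * v)) := by
    obtain ⟨j, rfl⟩ : ∃ j, k = j + 1 := ⟨k - 1, by omega⟩
    rw [Nat.add_sub_cancel]
    ring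
  rw [h3] at h
  exact (hy.mul h2).not_posAt h

/-- the six cases. -/
theorem CTRI_L {𝔫 P : Ideal B} [𝔫.IsPrime] [P.IsPrime] (hP : P ≤ 𝔫) {y y' z u : F} {r : ℕ}
    (hr : 2 ≤ r) (hy : UnitAt P y) (hy' : PosAt 𝔫 y) (hu : UnitAt 𝔫 u) (he : y' = z ^ r * u)
    (h1 : PosAt P (y' - y)) (h2 : PosAt P (z - y ^ r)) : False := by
  have hyr : IntAt P (y ^ r) := hy.intAt.pow r
  have hz : IntAt P z := by
    have := h2.intAt.add hyr
    rwa [sub_add_cancel] at this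
  have h3 : PosAt P (z ^ r - (y ^ r) ^ r) := PosAt.pow_sub_pow hz hyr h2 r
  have h4 : y - y ^ (r * r) * u = -(y' - y) + (z ^ r - (y ^ r) ^ r) * u := by
    rw [he, ← pow_mul]
    ring
  refine CTRI_K hP hy hy' hu.intAt (k := r * r) (by nlinarith) ?_
  rw [h4]
  exact h1.neg.add (h3.mul_intAt (hu.intAt.mono hP))

end

theorem cuspTri (h : Stmt_Dich) : Stmt_CuspTri := by
  intro B F _ _ _ _ _ _ 𝔫 PA PM PC r c X X1 X2 h𝔫 hPA hPM hPC hr hc hX0 hX hΦ1 hΦ2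
    hAX hA1 hA2 hMX hM1 hM2 hCX2 hC1 hC2
  haveI := h𝔫
  haveI := hPA
  haveI := hPM
  haveI := hPC
  obtain ⟨hX10, hX1, T1⟩ := h B F 𝔫 r c X1 X h𝔫 hr hc hX0 hX hΦ1
  obtain ⟨hX20, hX2, T2⟩ := h B F 𝔫 r c X2 X1 h𝔫 hr hc hX10 hX1 hΦ2
  have self0 : ∀ (P : Ideal B) [P.IsPrime] (y : F), PosAt P (y - y) := fun P _ y => by
    rw [sub_self]; exact posAt_zero
  -- the component `A`
  have hA_T1 : PA ≤ 𝔫 → ¬ ∃ u : F, UnitAt 𝔫 u ∧ X = X1 ^ r * u := by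
    rintro hP ⟨u, hu, he⟩
    exact CTRI_L hP hr hAX hX hu he (self0 PA X) hA1
  have hA_T2 : PA ≤ 𝔫 → ¬ ∃ u : F, UnitAt 𝔫 u ∧ X1 = X2 ^ r * u := by
    rintro hP ⟨u, hu, he⟩
    have hAX1 : UnitAt PA X1 := (hAX.pow r).of_sub_posAt hA1
    exact CTRI_L hP hr hAX1 hX1 hu he (self0 PA X1) hA2
  -- the component `mid`
  have hM_T1 : PM ≤ 𝔫 → ¬ ∃ u : F, UnitAt 𝔫 u ∧ X = X1 ^ r * u := by
    rintro hP ⟨u, hu, he⟩
    exact CTRI_L hP hr hMX hX hu he (self0 PM X) hM1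
  have hM_T2 : PM ≤ 𝔫 → ¬ ∃ u : F, UnitAt 𝔫 u ∧ X2 = X1 ^ r * u := by
    rintro hP ⟨u, hu, he⟩
    exact CTRI_L hP hr hMX hX hu he hM2 hM1
  -- the component `C`
  have hC_T1 : PC ≤ 𝔫 → ¬ ∃ u : F, UnitAt 𝔫 u ∧ X1 = X ^ r * u := by
    rintro hP ⟨u, hu, he⟩
    have hCX1 : UnitAt PC X1 := (hCX2.pow r).of_sub_posAt hC1
    exact CTRI_L hP hr hCX1 hX1 hu he (self0 PC X1) hC2
  refine ⟨fun hA hM => ?_, fun hA hC => ?_, fun hM hC => ?_, fun hM => ?_⟩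
  · exact T2.elim (hM_T2 hM) (hA_T2 hA)
  · exact T1.elim (hC_T1 hC) (hA_T1 hA)
  · exact T1.elim (hC_T1 hC) (hM_T1 hM)
  · obtain ⟨u, hu, he⟩ := T1.resolve_right (hM_T1 hM)
    obtain ⟨u', hu', he'⟩ := T2.resolve_left (hM_T2 hM)
    exact ⟨u, u', hu, hu', he, he'⟩

end Fermat.Agent.S36.Reg
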